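import Mathlib

/-!
# Ultraproduct limits of matrices over quotients of a complete local ring
-/

set_option autoImplicit false
set_option linter.unusedSectionVars false
set_option linter.style.haveILetI false

namespace Fermat.Agent.Patch

open IsLocalRing Filter

/-- An ultrafilter picks a value of a function with finite range. -/
theorem exists_eventually_eq {α : Type*} [Finite α] (f : ℕ → α) :
    ∃ a, ∀ᶠ n in (hyperfilter ℕ : Filter ℕ), f n = a := by
  obtain ⟨a, ha⟩ := Ultrafilter.eq_pure_of_finite ((hyperfilter ℕ).map f)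
  refine ⟨a, ?_⟩
  have : ({a} : Set α) ∈ (hyperfilter ℕ).map f := by rw [ha]; exact Ultrafilter.mem_pure.2 rfl
  exact this

theorem hyper_of_atTop {p : ℕ → Prop} (h : ∀ᶠ n in atTop, p n) :
    ∀ᶠ n in (hyperfilter ℕ : Filter ℕ), p n := by
  rw [← Nat.cofinite_eq_atTop] at h
  exact hyperfilter_le_cofinite h

section Scalars

variable {S : Type*} [CommRing S] [IsLocalRing S] [IsNoetherianRing S]
  [IsAdicComplete (maximalIdeal S) S] [Finite (ResidueField S)]

instance finite_quotient_pow (m : ℕ) : Finite (S ⧸ (maximalIdeal S) ^ m) := by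
  haveI : Finite (S ⧸ maximalIdeal S) := ‹Finite (ResidueField S)›
  exact Ideal.finite_quotient_pow (maximalIdeal S).fg_of_isNoetherianRing m

/-- `x` is the limit of the `x n`. -/
def LimS (J : ℕ → Ideal S) (x : ℕ → S) (L : S) : Prop :=
  ∀ m, ∀ᶠ n in (hyperfilter ℕ : Filter ℕ), J n ≤ (maximalIdeal S) ^ m ∧
    x n - L ∈ (maximalIdeal S) ^ m

theorem eq_of_forall_mem_pow {x : S} (h : ∀ m, x ∈ (maximalIdeal S) ^ m) : x = 0 := by
  have := (IsHausdorff.haus (inferInstance : IsHausdorff (maximalIdeal S) S)) x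
  apply this
  intro m
  rw [smul_eq_mul, Ideal.mul_top, SModEq.zero]
  exact h m

theorem exists_LimS {J : ℕ → Ideal S} (hJ : ∀ m, ∀ᶠ n in atTop, J n ≤ (maximalIdeal S) ^ m)
    (x : ℕ → S) : ∃ L, LimS J x L := by
  have h1 : ∀ m, ∃ a : S, ∀ᶠ n in (hyperfilter ℕ : Filter ℕ), x n - a ∈ (maximalIdeal S) ^ m := by
    intro m
    obtain ⟨a, ha⟩ := exists_eventually_eq
      (fun n => (Ideal.Quotient.mk ((maximalIdeal S) ^ m) (x n)))
    obtain ⟨a, rfl⟩ := Ideal.Quotient.mk_surjective a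
    refine ⟨a, ?_⟩
    filter_upwards [ha] with n hn
    exact Ideal.Quotient.eq.1 hn
  choose a ha using h1
  have h2 : ∀ {m n}, m ≤ n → a m ≡ a n [SMOD (maximalIdeal S) ^ m • (⊤ : Submodule S S)] := by
    intro m n hmn
    rw [smul_eq_mul, Ideal.mul_top, SModEq.sub_mem]
    obtain ⟨i, hi1, hi2⟩ := ((ha m).and (ha n)).exists
    have h3 : a m - a n = (x i - a n) - (x i - a m) := by ring
    rw [h3]
    exact sub_mem (Ideal.pow_le_pow_right hmn hi2) hi1
  obtain ⟨L, hL⟩ := IsPrecomplete.prec (inferInstance : IsPrecomplete (maximalIdeal S) S) h2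
  refine ⟨L, fun m => ?_⟩
  filter_upwards [ha m, hyper_of_atTop (hJ m)] with n hn hn2
  refine ⟨hn2, ?_⟩
  have h3 := hL m
  rw [smul_eq_mul, Ideal.mul_top, SModEq.sub_mem] at h3
  have h4 : x n - L = (x n - a m) + (a m - L) := by ring
  rw [h4]
  exact add_mem hn h3

theorem LimS.unique {J : ℕ → Ideal S} {x x' : ℕ → S} {L L' : S} (h : LimS J x L)
    (h' : LimS J x' L') (hx : ∀ᶠ n in (hyperfilter ℕ : Filter ℕ), x n - x' n ∈ J n) : L = L' := by
  rw [← sub_eq_zero]
  apply eq_of_forall_mem_pow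
  intro m
  obtain ⟨n, h1, h2, h3⟩ := ((h m).and ((h' m).and hx)).exists
  have e : L - L' = (x n - x' n) - (x n - L) + (x' n - L') := by ring
  rw [e]
  exact add_mem (sub_mem (h1.1 h3) h1.2) h2.2

theorem LimS.add {J : ℕ → Ideal S} {x x' : ℕ → S} {L L' : S} (h : LimS J x L)
    (h' : LimS J x' L') : LimS J (fun n => x n + x' n) (L + L') := by
  intro m
  filter_upwards [h m, h' m] with n h1 h2
  refine ⟨h1.1, ?_⟩
  have e : x n + x' n - (L + L') = (x n - L) + (x' n - L') := by ring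
  rw [e]; exact add_mem h1.2 h2.2

theorem LimS.mul {J : ℕ → Ideal S} {x x' : ℕ → S} {L L' : S} (h : LimS J x L)
    (h' : LimS J x' L') : LimS J (fun n => x n * x' n) (L * L') := by
  intro m
  filter_upwards [h m, h' m] with n h1 h2
  refine ⟨h1.1, ?_⟩
  have e : x n * x' n - L * L' = x' n * (x n - L) + L * (x' n - L') := by ring
  rw [e]; exact add_mem (Ideal.mul_mem_left _ _ h1.2) (Ideal.mul_mem_left _ _ h2.2)

theorem LimS.sum {J : ℕ → Ideal S} (hJ : ∀ m, ∀ᶠ n in atTop, J n ≤ (maximalIdeal S) ^ m)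
    {ι : Type*} (s : Finset ι) {x : ι → ℕ → S} {L : ι → S}
    (h : ∀ i ∈ s, LimS J (x i) (L i)) : LimS J (fun n => ∑ i ∈ s, x i n) (∑ i ∈ s, L i) := by
  classical
  induction s using Finset.induction_on with
  | empty =>
    intro m
    filter_upwards [hyper_of_atTop (hJ m)] with n hn
    exact ⟨hn, by simp⟩
  | insert i s hi ih =>
    simp only [Finset.sum_insert hi]
    exact (h i (Finset.mem_insert_self _ _)).add
      (ih fun j hj => h j (Finset.mem_insert_of_mem hj))

theorem LimS.const {J : ℕ → Ideal S} (hJ : ∀ m, ∀ᶠ n in atTop, J n ≤ (maximalIdeal S) ^ m)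
    (x : S) : LimS J (fun _ => x) x := by
  intro m
  filter_upwards [hyper_of_atTop (hJ m)] with n hn
  exact ⟨hn, by simp⟩

end Scalars

section Matrices

variable {S : Type*} [CommRing S] [IsLocalRing S] [IsNoetherianRing S]
  [IsAdicComplete (maximalIdeal S) S] [Finite (ResidueField S)]
variable {κ : Type*} [Fintype κ] [DecidableEq κ]

/-- The limit of matrices over `S ⧸ J n`. -/
def LimM (J : ℕ → Ideal S) (X : ∀ n, Matrix κ κ (S ⧸ J n)) (L : Matrix κ κ S) : Prop :=
  ∃ x : ℕ → Matrix κ κ S, (∀ n, (x n).map (Ideal.Quotient.mk (J n)) = X n) ∧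
    ∀ i j, LimS J (fun n => x n i j) (L i j)

variable {J : ℕ → Ideal S}

theorem exists_LimM (hJ : ∀ m, ∀ᶠ n in atTop, J n ≤ (maximalIdeal S) ^ m)
    (X : ∀ n, Matrix κ κ (S ⧸ J n)) : ∃ L, LimM J X L := by
  have h : ∀ n i j, ∃ s : S, Ideal.Quotient.mk (J n) s = X n i j :=
    fun n i j => Ideal.Quotient.mk_surjective _
  choose x hx using h
  have h2 : ∀ i j, ∃ L, LimS J (fun n => x n i j) L := fun i j => exists_LimS hJ _
  choose L hL using h2
  exact ⟨Matrix.of L, fun n => Matrix.of (x n), fun n => by ext i j; simp [hx], hL⟩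

theorem LimM.unique {X X' : ∀ n, Matrix κ κ (S ⧸ J n)} {L L' : Matrix κ κ S} (h : LimM J X L)
    (h' : LimM J X' L') (hX : ∀ᶠ n in (hyperfilter ℕ : Filter ℕ), X n = X' n) : L = L' := by
  obtain ⟨x, hx, hL⟩ := h
  obtain ⟨x', hx', hL'⟩ := h'
  ext i j
  refine (hL i j).unique (hL' i j) ?_
  filter_upwards [hX] with n hn
  rw [← Ideal.Quotient.eq]
  have := congrFun (congrFun hn i) j
  rw [← hx, ← hx'] at this
  exact this

theorem LimM.add {X X' : ∀ n, Matrix κ κ (S ⧸ J n)} {L L' : Matrix κ κ S} (h : LimM J X L)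
    (h' : LimM J X' L') : LimM J (fun n => X n + X' n) (L + L') := by
  obtain ⟨x, hx, hL⟩ := h
  obtain ⟨x', hx', hL'⟩ := h'
  refine ⟨fun n => x n + x' n, fun n => ?_, fun i j => (hL i j).add (hL' i j)⟩
  rw [Matrix.map_add _ (map_add _), hx, hx']

theorem LimM.mul (hJ : ∀ m, ∀ᶠ n in atTop, J n ≤ (maximalIdeal S) ^ m)
    {X X' : ∀ n, Matrix κ κ (S ⧸ J n)} {L L' : Matrix κ κ S} (h : LimM J X L)
    (h' : LimM J X' L') : LimM J (fun n => X n * X' n) (L * L') := by
  obtain ⟨x, hx, hL⟩ := h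
  obtain ⟨x', hx', hL'⟩ := h'
  refine ⟨fun n => x n * x' n, fun n => ?_, fun i j => ?_⟩
  · rw [Matrix.map_mul, hx, hx']
  · simp only [Matrix.mul_apply]
    exact LimS.sum hJ _ fun k _ => (hL i k).mul (hL' k j)

theorem LimM.const (hJ : ∀ m, ∀ᶠ n in atTop, J n ≤ (maximalIdeal S) ^ m) (L : Matrix κ κ S) :
    LimM J (fun n => L.map (Ideal.Quotient.mk (J n))) L :=
  ⟨fun _ => L, fun _ => rfl, fun i j => LimS.const hJ (L i j)⟩

theorem LimM.sum (hJ : ∀ m, ∀ᶠ n in atTop, J n ≤ (maximalIdeal S) ^ m)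
    {ι : Type*} (s : Finset ι) {X : ι → ∀ n, Matrix κ κ (S ⧸ J n)} {L : ι → Matrix κ κ S}
    (h : ∀ i ∈ s, LimM J (X i) (L i)) :
    LimM J (fun n => ∑ i ∈ s, X i n) (∑ i ∈ s, L i) := by
  classical
  induction s using Finset.induction_on with
  | empty =>
    have := LimM.const hJ (0 : Matrix κ κ S)
    simpa using this
  | insert i s hi ih =>
    simp only [Finset.sum_insert hi]
    exact (h i (Finset.mem_insert_self _ _)).add
      (ih fun j hj => h j (Finset.mem_insert_of_mem hj))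

end Matrices

end Fermat.Agent.Patch
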