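import Mathlib
import Fermat.Agent.Patch.Limit

/-!
# Limits of ring homomorphisms into matrix rings over quotients
-/

set_option autoImplicit false
set_option linter.unusedSectionVars false
set_option linter.style.haveILetI false

namespace Fermat.Agent.Patch

open IsLocalRing Filter

theorem pow_card_smul_eq_bot {P V : Type*} [CommRing P] [IsLocalRing P] [AddCommGroup V]
    [Module P V] [Finite V] :
    (maximalIdeal P) ^ (Nat.card V) • (⊤ : Submodule P V) = ⊥ := by
  have key : ∀ i : ℕ, (maximalIdeal P) ^ i • (⊤ : Submodule P V) = ⊥ ∨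
      Nat.card ((maximalIdeal P) ^ i • (⊤ : Submodule P V) : Submodule P V) + i ≤ Nat.card V := by
    intro i
    induction i with
    | zero =>
      right
      rw [pow_zero, Ideal.one_eq_top, Submodule.top_smul, add_zero]
      exact Nat.card_le_card_of_injective _ Subtype.val_injective
    | succ i ih =>
      rcases ih with h | h
      · left
        rw [pow_succ', mul_smul, h, Submodule.smul_bot]
      · set W : Submodule P V := (maximalIdeal P) ^ i • (⊤ : Submodule P V) with hW
        have e : (maximalIdeal P) ^ (i + 1) • (⊤ : Submodule P V) = maximalIdeal P • W := by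
          rw [hW, ← mul_smul, pow_succ']
        rw [e]
        have hle : maximalIdeal P • W ≤ W := Submodule.smul_le_right
        rcases hle.lt_or_eq with hlt | heq
        · right
          have : Nat.card (maximalIdeal P • W : Submodule P V) < Nat.card W := by
            have hlt' : ((maximalIdeal P • W : Submodule P V) : Set V) ⊂ (W : Set V) := hlt
            exact Set.Finite.card_lt_card (Set.toFinite _) hlt'
          omega
        · left
          have h0 : W = ⊥ := by
            apply Submodule.eq_bot_of_le_smul_of_le_jacobson_bot (maximalIdeal P) W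
              ?_ heq.ge (maximalIdeal_le_jacobson _)
            haveI : Module.Finite P W := Module.Finite.of_finite
            exact (Module.Finite.iff_fg).1 inferInstance
          rw [h0, Submodule.smul_bot]
  rcases key (Nat.card V) with h | h
  · exact h
  · exfalso
    have : 0 < Nat.card ((maximalIdeal P) ^ (Nat.card V) • (⊤ : Submodule P V) : Submodule P V) :=
      Nat.card_pos
    omega

section

variable {S : Type*} [CommRing S] [IsLocalRing S] {P : Type*} [CommRing P] [IsLocalRing P]
variable {κ : Type*} [Fintype κ] [DecidableEq κ]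

/-- The ideal of elements acting by matrices with entries in `I`. -/
def entIdeal {A : Type*} [CommRing A] (f : P →+* Matrix κ κ A) (I : Ideal A) : Ideal P where
  carrier := {x | ∀ i j, f x i j ∈ I}
  add_mem' {x y} hx hy i j := by
    rw [map_add, Matrix.add_apply]; exact add_mem (hx i j) (hy i j)
  zero_mem' i j := by rw [map_zero, Matrix.zero_apply]; exact zero_mem _
  smul_mem' c x hx i j := by
    rw [smul_eq_mul, map_mul, Matrix.mul_apply]
    exact sum_mem fun k _ => I.mul_mem_left _ (hx k j)

theorem mem_entIdeal {A : Type*} [CommRing A] {f : P →+* Matrix κ κ A} {I : Ideal A} {x : P} :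
    x ∈ entIdeal f I ↔ ∀ i j, f x i j ∈ I := Iff.rfl

theorem entIdeal_mul_le {A : Type*} [CommRing A] (f : P →+* Matrix κ κ A) (I I' : Ideal A) :
    entIdeal f I * entIdeal f I' ≤ entIdeal f (I * I') := by
  rw [Ideal.mul_le]
  intro x hx y hy i j
  rw [map_mul, Matrix.mul_apply]
  exact sum_mem fun k _ => Ideal.mul_mem_mul (hx i k) (hy k j)

theorem entIdeal_pow_le {A : Type*} [CommRing A] (f : P →+* Matrix κ κ A) (I : Ideal A) (m : ℕ) :
    entIdeal f I ^ m ≤ entIdeal f (I ^ m) := by
  induction m with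
  | zero => intro x _ i j; rw [pow_zero, Ideal.one_eq_top]; trivial
  | succ m ih =>
    rw [pow_succ, pow_succ]
    exact (Ideal.mul_mono_left ih).trans (entIdeal_mul_le f _ _)

/-- The uniform exponent of continuity. -/
noncomputable def cexp (S : Type*) [CommRing S] [IsLocalRing S] (κ : Type*) : ℕ :=
  Nat.card (κ → ResidueField S)

theorem pow_cexp_le [Finite (ResidueField S)] {J : Ideal S} (hJ : J ≤ maximalIdeal S)
    (f : P →+* Matrix κ κ (S ⧸ J)) :
    (maximalIdeal P) ^ (cexp S κ) ≤ entIdeal f ((maximalIdeal S).map (Ideal.Quotient.mk J)) := by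
  classical
  let g : S ⧸ J →+* ResidueField S := Ideal.Quotient.lift J (residue S)
    (fun a ha => (residue_eq_zero_iff a).2 (hJ ha))
  have hg : ∀ s : S, g (Ideal.Quotient.mk J s) = residue S s := fun s => Ideal.Quotient.lift_mk _ _ _
  let fb : P →+* Matrix κ κ (ResidueField S) := (g.mapMatrix).comp f
  let F : P →+* Module.End (ResidueField S) (κ → ResidueField S) :=
    ((Matrix.toLinAlgEquiv' :
      Matrix κ κ (ResidueField S) ≃ₐ[ResidueField S] _) : _ →+* _).comp fb
  letI : Module P (κ → ResidueField S) := Module.compHom _ F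
  have hsm : ∀ (x : P) (v : κ → ResidueField S), x • v = (fb x).mulVec v := fun x v => rfl
  have h := pow_card_smul_eq_bot (P := P) (V := κ → ResidueField S)
  intro x hx i j
  have h1 : ∀ v : κ → ResidueField S, (fb x).mulVec v = 0 := by
    intro v
    rw [← hsm]
    have : x • v ∈ (maximalIdeal P) ^ (Nat.card (κ → ResidueField S)) •
      (⊤ : Submodule P (κ → ResidueField S)) := Submodule.smul_mem_smul hx trivial
    rw [h] at this
    exact this
  have h2 : fb x i j = 0 := by
    have := congrFun (h1 (Pi.single j 1)) i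
    simpa [Matrix.mulVec_single] using this
  obtain ⟨s, hs⟩ := Ideal.Quotient.mk_surjective (f x i j)
  have h3 : fb x i j = residue S s := by
    show g (f x i j) = _
    rw [← hs, hg]
  rw [h3, residue_eq_zero_iff] at h2
  rw [← hs]
  exact Ideal.mem_map_of_mem _ h2

theorem exists_of_mem_pow [Finite (ResidueField S)] {J : Ideal S} (hJ : J ≤ maximalIdeal S)
    (f : P →+* Matrix κ κ (S ⧸ J)) {m : ℕ} {x : P} (hx : x ∈ (maximalIdeal P) ^ (cexp S κ * m))
    (i j : κ) : ∃ s ∈ (maximalIdeal S) ^ m, Ideal.Quotient.mk J s = f x i j := by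
  rw [pow_mul] at hx
  have h := (entIdeal_pow_le f _ m) ((Ideal.pow_right_mono (pow_cexp_le hJ f) m) hx) i j
  rw [← Ideal.map_pow, Ideal.mem_map_iff_of_surjective _ Ideal.Quotient.mk_surjective] at h
  exact h

end

section

variable {S : Type*} [CommRing S] [IsLocalRing S] [IsNoetherianRing S]
  [IsAdicComplete (maximalIdeal S) S] [Finite (ResidueField S)]
variable {P : Type*} [CommRing P] [IsLocalRing P] [IsNoetherianRing P]
  [IsAdicComplete (maximalIdeal P) P] [Finite (ResidueField P)]
variable {κ : Type*} [Fintype κ] [DecidableEq κ]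
variable {J : ℕ → Ideal S}

theorem LimM.of_mem_pow (hJ : ∀ m, ∀ᶠ n in atTop, J n ≤ (maximalIdeal S) ^ m)
    {X : ∀ n, Matrix κ κ (S ⧸ J n)}
    (h : ∀ m, ∀ᶠ n in (hyperfilter ℕ : Filter ℕ), ∀ i j,
      ∃ s ∈ (maximalIdeal S) ^ m, Ideal.Quotient.mk (J n) s = X n i j) :
    LimM J X 0 := by
  have hl : ∀ n i j, ∃ s : S, Ideal.Quotient.mk (J n) s = X n i j :=
    fun n i j => Ideal.Quotient.mk_surjective _
  choose x hx using hl
  refine ⟨fun n => Matrix.of (x n), fun n => by ext i j; simp [hx], fun i j m => ?_⟩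
  filter_upwards [h m, hyper_of_atTop (hJ m)] with n h1 h2
  refine ⟨h2, ?_⟩
  obtain ⟨s, hs, hs'⟩ := h1 i j
  have h3 : x n i j - s ∈ J n := by
    rw [← Ideal.Quotient.eq, hx, hs']
  have e : (Matrix.of (x n)) i j - (0 : Matrix κ κ S) i j = (x n i j - s) + s := by
    simp
  rw [e]
  exact add_mem (h2 h3) hs

/-- The limit of a sequence of ring homomorphisms. -/
noncomputable def limHom (hJ : ∀ m, ∀ᶠ n in atTop, J n ≤ (maximalIdeal S) ^ m)
    (ρ : ∀ n, P →+* Matrix κ κ (S ⧸ J n)) : P →+* Matrix κ κ S where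
  toFun x := (exists_LimM hJ (fun n => ρ n x)).choose
  map_one' := (exists_LimM hJ (fun n => ρ n 1)).choose_spec.unique
    (LimM.const hJ 1) (Eventually.of_forall fun n => by
      rw [map_one, Matrix.map_one _ (map_zero _) (map_one _)])
  map_zero' := (exists_LimM hJ (fun n => ρ n 0)).choose_spec.unique
    (LimM.const hJ 0) (Eventually.of_forall fun n => by
      rw [map_zero, Matrix.map_zero _ (map_zero _)])
  map_add' x y := (exists_LimM hJ (fun n => ρ n (x + y))).choose_spec.unique
    ((exists_LimM hJ (fun n => ρ n x)).choose_spec.add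
      (exists_LimM hJ (fun n => ρ n y)).choose_spec) (Eventually.of_forall fun n => map_add _ _ _)
  map_mul' x y := (exists_LimM hJ (fun n => ρ n (x * y))).choose_spec.unique
    (LimM.mul hJ (exists_LimM hJ (fun n => ρ n x)).choose_spec
      (exists_LimM hJ (fun n => ρ n y)).choose_spec) (Eventually.of_forall fun n => map_mul _ _ _)

theorem LimM_limHom_const (hJ : ∀ m, ∀ᶠ n in atTop, J n ≤ (maximalIdeal S) ^ m)
    (ρ : ∀ n, P →+* Matrix κ κ (S ⧸ J n)) (x : P) :
    LimM J (fun n => ρ n x) (limHom hJ ρ x) :=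
  (exists_LimM hJ (fun n => ρ n x)).choose_spec

theorem LimM_limHom (hJ : ∀ m, ∀ᶠ n in atTop, J n ≤ (maximalIdeal S) ^ m)
    (ρ : ∀ n, P →+* Matrix κ κ (S ⧸ J n)) {x : ℕ → P} {L : P}
    (hx : LimS (fun _ => (⊥ : Ideal P)) x L) :
    LimM J (fun n => ρ n (x n)) (limHom hJ ρ L) := by
  have h1 : LimM J (fun n => ρ n (x n - L)) 0 := by
    apply LimM.of_mem_pow hJ
    intro m
    filter_upwards [hx (cexp S κ * m), hyper_of_atTop (hJ 1)] with n h1 h2 i j
    rw [pow_one] at h2
    exact exists_of_mem_pow h2 (ρ n) h1.2 i j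
  have h2 := (LimM_limHom_const hJ ρ L).add h1
  rw [add_zero] at h2
  have h3 : (fun n => ρ n (x n)) = fun n => ρ n L + ρ n (x n - L) := by
    funext n
    rw [← map_add]
    congr 1
    ring
  rw [h3]
  exact h2

theorem hbot (m : ℕ) : ∀ᶠ _n : ℕ in atTop, (⊥ : Ideal P) ≤ (maximalIdeal P) ^ m :=
  Eventually.of_forall fun _ => bot_le

theorem limHom_mem_pow (hJ : ∀ m, ∀ᶠ n in atTop, J n ≤ (maximalIdeal S) ^ m)
    (ρ : ∀ n, P →+* Matrix κ κ (S ⧸ J n)) {m : ℕ} {x : P}
    (hx : x ∈ (maximalIdeal P) ^ (cexp S κ * m)) (i j : κ) :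
    limHom hJ ρ x i j ∈ (maximalIdeal S) ^ m := by
  obtain ⟨y, hy, hL⟩ := LimM_limHom_const hJ ρ x
  obtain ⟨n, h1, h2⟩ := ((hL i j m).and (hyper_of_atTop (hJ 1))).exists
  rw [pow_one] at h2
  obtain ⟨s, hs, hs'⟩ := exists_of_mem_pow h2 (ρ n) hx i j
  have h3 : y n i j - s ∈ J n := by
    rw [← Ideal.Quotient.eq, hs']
    exact congrFun (congrFun (hy n) i) j
  have e : limHom hJ ρ x i j = (y n i j - s) + s - (y n i j - limHom hJ ρ x i j) := by ring
  rw [e]
  exact sub_mem (add_mem (h1.1 h3) hs) h1.2

end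

end Fermat.Agent.Patch
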