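import Mathlib
import Fermat.Agent.Patch.Hom
import Fermat.Prelude.Thm_IsAdicComplete_of_module_finite

/-!
# The patched module and the dimension inequality
-/

set_option autoImplicit false
set_option linter.unusedSectionVars false
set_option linter.style.haveILetI false

namespace Fermat.Agent.Patch

open IsLocalRing Filter RingTheory.Sequence Module

section dim

variable {R : Type*} [CommRing R] [IsLocalRing R] [IsNoetherianRing R]

theorem supportDim_le_add_length (ws : List R) (hws : ∀ w ∈ ws, w ∈ maximalIdeal R)
    (M : Type*) [AddCommGroup M] [Module R M] [Module.Finite R M] :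
    supportDim R M ≤ supportDim R (M ⧸ Ideal.ofList ws • (⊤ : Submodule R M)) + ws.length := by
  induction ws generalizing M with
  | nil =>
    rw [Ideal.ofList_nil, Submodule.bot_smul]
    simpa using (supportDim_eq_of_equiv (Submodule.quotEquivOfEqBot ⊥ rfl)).ge
  | cons x ws ih =>
    have h1 := supportDim_le_supportDim_quotSMulTop_succ (R := R) (M := M)
      (hws x (List.mem_cons_self))
    have h2 := ih (fun w hw => hws w (List.mem_cons_of_mem _ hw)) (QuotSMulTop x M)
    have h3 := supportDim_eq_of_equiv
      (Submodule.quotOfListConsSMulTopEquivQuotSMulTopInner M x ws)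
    rw [h3]
    refine h1.trans ?_
    rw [List.length_cons]
    push_cast
    rw [← add_assoc]
    gcongr

theorem supportDim_le_zero (M : Type*) [AddCommGroup M] [Module R M] [Module.Finite R M]
    {e : ℕ} (h : (maximalIdeal R) ^ e ≤ annihilator R M) : supportDim R M ≤ 0 := by
  rw [supportDim_eq_ringKrullDim_quotient_annihilator, ringKrullDim_quotient]
  haveI : Subsingleton (PrimeSpectrum.zeroLocus (annihilator R M : Set R)) := by
    constructor
    rintro ⟨p, hp⟩ ⟨q, hq⟩
    have key : ∀ p : PrimeSpectrum R, p ∈ PrimeSpectrum.zeroLocus (annihilator R M : Set R) →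
        p.asIdeal = maximalIdeal R := by
      intro p hp
      have h1 : annihilator R M ≤ p.asIdeal := hp
      have h2 : maximalIdeal R ≤ p.asIdeal := p.2.le_of_pow_le (h.trans h1)
      exact ((maximalIdeal.isMaximal R).eq_of_le p.2.ne_top h2).symm
    apply Subtype.ext
    exact PrimeSpectrum.ext ((key p hp).trans (key q hq).symm)
  exact Order.krullDim_nonpos_of_subsingleton

theorem sup_pow_le (I A : Ideal R) (e : ℕ) : (I ⊔ A) ^ e ≤ I ^ e ⊔ A := by
  induction e with
  | zero => simp
  | succ e ih =>
    rw [pow_succ, Ideal.mul_le]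
    intro r hr s hs
    obtain ⟨a, ha, b, hb, rfl⟩ := Submodule.mem_sup.1 (ih hr)
    obtain ⟨c, hc, d, hd, rfl⟩ := Submodule.mem_sup.1 hs
    have e1 : (a + b) * (c + d) = a * c + (a * d + b * (c + d)) := by ring
    rw [e1]
    refine Submodule.add_mem_sup ?_ (add_mem (A.mul_mem_left _ hd) (A.mul_mem_right _ hb))
    rw [pow_succ]
    exact Ideal.mul_mem_mul ha hc

theorem supportDim_le_length {M : Type*} [AddCommGroup M] [Module R M] [Module.Finite R M]
    (ws : List R) (hws : ∀ w ∈ ws, w ∈ maximalIdeal R)
    (hm : maximalIdeal R ≤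
      (annihilator R (M ⧸ Ideal.ofList ws • (⊤ : Submodule R M))).radical) :
    supportDim R M ≤ ws.length := by
  refine (supportDim_le_add_length ws hws M).trans ?_
  have h : supportDim R (M ⧸ Ideal.ofList ws • (⊤ : Submodule R M)) ≤ 0 := by
    obtain ⟨e, he⟩ := Ideal.exists_pow_le_of_le_radical_of_fg hm
      (IsNoetherian.noetherian (maximalIdeal R))
    exact supportDim_le_zero (M ⧸ Ideal.ofList ws • (⊤ : Submodule R M)) (e := e) he
  calc supportDim R (M ⧸ Ideal.ofList ws • (⊤ : Submodule R M)) + ws.length
      ≤ 0 + ws.length := by gcongr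
    _ = ws.length := by rw [zero_add]

end dim

section limits

variable {P : Type*} [CommRing P] [IsLocalRing P] [IsNoetherianRing P]
  [IsAdicComplete (maximalIdeal P) P] [Finite (ResidueField P)]

/-- Abbreviation: limits in the big ring. -/
abbrev LimP (x : ℕ → P) (L : P) : Prop := LimS (fun _ => (⊥ : Ideal P)) x L

theorem exists_LimP (x : ℕ → P) : ∃ L, LimP x L := exists_LimS hbot x

theorem LimP.mem_pow {x : ℕ → P} {L : P} (h : LimP x L) {m : ℕ}
    (hx : ∀ᶠ n in (hyperfilter ℕ : Filter ℕ), x n ∈ (maximalIdeal P) ^ m) :
    L ∈ (maximalIdeal P) ^ m := by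
  obtain ⟨n, h1, h2⟩ := ((h m).and hx).exists
  have e : L = x n - (x n - L) := by ring
  rw [e]
  exact sub_mem h2 h1.2

theorem LimP.unique {x : ℕ → P} {L L' : P} (h : LimP x L) (h' : LimP x L') : L = L' :=
  LimS.unique h h' (Eventually.of_forall fun n => by simp)

end limits

section module

variable {S : Type*} [CommRing S] [IsLocalRing S] [IsNoetherianRing S]
  [IsAdicComplete (maximalIdeal S) S] [Finite (ResidueField S)]
variable {P : Type*} [CommRing P] [IsLocalRing P] [IsNoetherianRing P]
  [IsAdicComplete (maximalIdeal P) P] [Finite (ResidueField P)]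
variable {κ : Type*} [Fintype κ] [DecidableEq κ]
variable {J : ℕ → Ideal S}

/-- The module `S ^ κ` with `P` acting through matrices. -/
def PMod (_f : P →+* Matrix κ κ S) : Type _ := κ → S

variable (f : P →+* Matrix κ κ S)

instance : AddCommGroup (PMod f) := inferInstanceAs (AddCommGroup (κ → S))
instance : Module S (PMod f) := inferInstanceAs (Module S (κ → S))
instance : Module.Finite S (PMod f) := inferInstanceAs (Module.Finite S (κ → S))
instance [Nonempty κ] : Nontrivial (PMod f) := inferInstanceAs (Nontrivial (κ → S))

noncomputable instance : Module P (PMod f) where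
  smul x v := (f x).mulVec v
  one_smul := by
    have h : ∀ v : κ → S, (f 1).mulVec v = v := fun v => by rw [map_one, Matrix.one_mulVec]
    exact h
  mul_smul := by
    have h : ∀ (x y : P) (v : κ → S), (f (x * y)).mulVec v = (f x).mulVec ((f y).mulVec v) :=
      fun x y v => by rw [map_mul, Matrix.mulVec_mulVec]
    exact h
  smul_zero := by
    have h : ∀ x : P, (f x).mulVec (0 : κ → S) = 0 := fun x => Matrix.mulVec_zero _
    exact h
  smul_add := by
    have h : ∀ (x : P) (v w : κ → S), (f x).mulVec (v + w) = (f x).mulVec v + (f x).mulVec w :=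
      fun x v w => Matrix.mulVec_add _ _ _
    exact h
  add_smul := by
    have h : ∀ (x y : P) (v : κ → S), (f (x + y)).mulVec v = (f x).mulVec v + (f y).mulVec v :=
      fun x y v => by rw [map_add, Matrix.add_mulVec]
    exact h
  zero_smul := by
    have h : ∀ (v : κ → S), (f 0).mulVec v = 0 :=
      fun v => by rw [map_zero, Matrix.zero_mulVec]
    exact h

theorem smul_apply (x : P) (v : PMod f) (i : κ) :
    (x • v : PMod f) i = ∑ j, f x i j * (v : κ → S) j := rfl

instance : SMulCommClass S P (PMod f) := ⟨by
  have h : ∀ (s : S) (x : P) (v : κ → S), s • (f x).mulVec v = (f x).mulVec (s • v) :=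
    fun s x v => (Matrix.mulVec_smul _ _ _).symm
  exact h⟩

theorem smul_eq_smul {x : P} {s : S} (h : f x = Matrix.scalar κ s) (v : PMod f) :
    x • v = s • v := by
  have h : ∀ (v : κ → S), (f x).mulVec v = s • v := fun v => by
    rw [h]
    ext i
    simp [Matrix.scalar_apply, Matrix.mulVec_diagonal]
  exact h v

theorem mem_annihilator_iff {x : P} : x ∈ annihilator P (PMod f) ↔ f x = 0 := by
  rw [Module.mem_annihilator]
  constructor
  · intro h
    ext i j
    have h2 : (f x).mulVec (Pi.single j 1 : κ → S) i = 0 :=
      congrFun (h (Pi.single j 1 : κ → S)) i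
    simpa [Matrix.mulVec_single] using h2
  · intro h
    have h2 : ∀ (v : κ → S), (f x).mulVec v = 0 := fun v => by rw [h]; exact Matrix.zero_mulVec v
    exact h2

/-- Continuity and generation hypotheses. -/
structure Good (rs : List S) : Prop where
  reg : IsWeaklyRegular S rs
  max : Ideal.ofList rs = maximalIdeal S
  cont : ∃ c : ℕ, ∀ m, ∀ x ∈ (maximalIdeal P) ^ (c * m), ∀ i j, f x i j ∈ (maximalIdeal S) ^ m
  act : ∀ s ∈ rs, ∃ a : P, f a = Matrix.scalar κ s

variable {f} {rs : List S}

theorem Good.mem_max [Nonempty κ] (_h : Good f rs) {s : S} (hs : s ∈ maximalIdeal S)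
    {a : P} (ha : f a = Matrix.scalar κ s) : a ∈ maximalIdeal P := by
  rw [IsLocalRing.mem_maximalIdeal, mem_nonunits_iff]
  intro hu
  have h1 : IsUnit (f a) := hu.map f
  rw [ha] at h1
  obtain ⟨i⟩ := ‹Nonempty κ›
  have h2 : IsUnit (Matrix.scalar κ s).det := (Matrix.isUnit_iff_isUnit_det _).1 h1
  rw [Matrix.scalar_apply, Matrix.det_diagonal] at h2
  have h3 : IsUnit s := by
    rw [IsUnit.prod_univ_iff] at h2
    exact h2 i
  exact (mem_nonunits_iff.1 ((IsLocalRing.mem_maximalIdeal s).1 hs)) h3

theorem Good.isHausdorff (h : Good f rs) : IsHausdorff (maximalIdeal P) (PMod f) := by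
  constructor
  intro v hv
  obtain ⟨c, hc⟩ := h.cont
  have key : ∀ m i, v i ∈ (maximalIdeal S) ^ m := by
    intro m i
    have h1 := hv (c * m)
    rw [SModEq.zero] at h1
    refine Submodule.smul_induction_on h1 ?_ ?_
    · intro x hx w _
      rw [smul_apply]
      exact sum_mem fun j _ => Ideal.mul_mem_right _ _ (hc m x hx i j)
    · intro a b ha hb
      exact add_mem ha hb
  funext i
  exact eq_of_forall_mem_pow fun m => key m i

theorem Good.finite [Nonempty κ] (h : Good f rs) : Module.Finite P (PMod f) := by
  classical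
  haveI := h.isHausdorff
  -- the quotient by the maximal ideal is finite
  have hsub : ∀ v : PMod f, (∀ i, v i ∈ maximalIdeal S) →
      v ∈ (maximalIdeal P) • (⊤ : Submodule P (PMod f)) := by
    intro v hv
    have key : ∀ s ∈ maximalIdeal S, ∀ w : PMod f,
        s • w ∈ (maximalIdeal P) • (⊤ : Submodule P (PMod f)) := by
      intro s hs
      rw [← h.max] at hs
      refine Submodule.span_induction ?_ ?_ ?_ ?_ hs
      · intro x hx w
        obtain ⟨a, ha⟩ := h.act x hx
        rw [← smul_eq_smul f ha w]
        refine Submodule.smul_mem_smul (h.mem_max ?_ ha) trivial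
        rw [← h.max]
        exact Ideal.subset_span hx
      · intro w
        rw [zero_smul]
        exact zero_mem _
      · intro x y _ _ hx hy w
        rw [add_smul]
        exact add_mem (hx w) (hy w)
      · intro a x _ hx w
        rw [smul_eq_mul, mul_comm, mul_smul]
        exact hx (a • w)
    have e : v = ∑ i, v i • (Pi.single i (1 : S) : κ → S) := by
      have h2 : ∀ v : κ → S, v = ∑ i, v i • (Pi.single i (1 : S) : κ → S) := fun v => by
        ext j
        simp [Finset.sum_apply, Pi.single_apply]
      exact h2 v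
    rw [e]
    exact sum_mem fun i _ => key (v i) (hv i) (Pi.single i (1 : S) : κ → S)
  let g : PMod f →+ (κ → ResidueField S) :=
    { toFun := fun v i => residue S (v i)
      map_zero' := by ext i; exact map_zero _
      map_add' := fun v w => by ext i; exact map_add _ _ _ }
  have hfinq : Finite (PMod f ⧸ (maximalIdeal P) • (⊤ : Submodule P (PMod f))) := by
    have hs : ∀ v w : PMod f, g v = g w →
        (Submodule.Quotient.mk v : PMod f ⧸ (maximalIdeal P) • (⊤ : Submodule P (PMod f))) =
          Submodule.Quotient.mk w := by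
      intro v w hvw
      rw [Submodule.Quotient.eq]
      apply hsub
      intro i
      have := congrFun hvw i
      rw [← residue_eq_zero_iff]
      have h2 : residue S ((v - w) i) = residue S (v i) - residue S (w i) := map_sub _ _ _
      rw [h2]
      exact sub_eq_zero.2 this
    have hinj : ∃ F : (PMod f ⧸ (maximalIdeal P) • (⊤ : Submodule P (PMod f))) →
        (κ → ResidueField S), Function.Injective F := by
      refine ⟨fun q => g q.out, fun q q' hq => ?_⟩
      have := hs _ _ hq
      simpa using this
    obtain ⟨F, hF⟩ := hinj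
    exact Finite.of_injective F hF
  haveI : Fintype (PMod f ⧸ (maximalIdeal P) • (⊤ : Submodule P (PMod f))) := Fintype.ofFinite _
  -- linear map from a free module
  let Q := PMod f ⧸ (maximalIdeal P) • (⊤ : Submodule P (PMod f))
  let L : (Q → P) →ₗ[P] PMod f :=
    Fintype.linearCombination P (fun q : Q => q.out)
  have hL : Function.Surjective L := by
    haveI : IsAdicComplete (maximalIdeal P) (Q → P) := by
      exact IsAdicComplete.of_module_finite _ _
    apply surjective_of_mkQ_comp_surjective (I := maximalIdeal P)
    intro y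
    obtain ⟨v, rfl⟩ := Submodule.mkQ_surjective _ y
    refine ⟨Pi.single (Submodule.Quotient.mk v) 1, ?_⟩
    rw [LinearMap.comp_apply]
    simp only [L]
    rw [Fintype.linearCombination_apply_single, one_smul]
    simp
  exact Module.Finite.of_surjective L hL

end module

end Fermat.Agent.Patch
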