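import Mathlib
import Fermat.Agent.Patch.Dim

/-!
# Patching: the dimension inequality and the faithful case
-/

set_option autoImplicit false
set_option linter.unusedSectionVars false
set_option linter.style.haveILetI false

namespace Fermat.Agent.Patch

open IsLocalRing Filter RingTheory.Sequence Module

variable {S : Type*} [CommRing S] [IsLocalRing S] [IsNoetherianRing S]
  [IsAdicComplete (maximalIdeal S) S] [Finite (ResidueField S)]
variable {P : Type*} [CommRing P] [IsLocalRing P] [IsNoetherianRing P]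
  [IsAdicComplete (maximalIdeal P) P] [Finite (ResidueField P)]
variable {κ : Type*} [Fintype κ] [DecidableEq κ]
variable {J : ℕ → Ideal S}

section good

variable {f : P →+* Matrix κ κ S} {rs : List S}

theorem isWeaklyRegular_pi (h : IsWeaklyRegular S rs) : IsWeaklyRegular (κ → S) rs := by
  have h1 := IsWeaklyRegular.isWeaklyRegular_lTensor (M₂ := κ → S) h
  exact ((TensorProduct.rid S (κ → S)).isWeaklyRegular_congr rs).1 h1

theorem exists_lift_list {X Y : Type*} {r : X → Y → Prop} (l : List Y)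
    (h : ∀ y ∈ l, ∃ x, r x y) : ∃ l' : List X, List.Forall₂ r l' l := by
  induction l with
  | nil => exact ⟨[], List.Forall₂.nil⟩
  | cons y l ih =>
    obtain ⟨l', hl'⟩ := ih fun z hz => h z (List.mem_cons_of_mem _ hz)
    obtain ⟨x, hx⟩ := h y (List.mem_cons_self)
    exact ⟨x :: l', List.Forall₂.cons hx hl'⟩

theorem Good.le_supportDim [Nonempty κ] (h : Good f rs) :
    (rs.length : WithBot ℕ∞) ≤ supportDim P (PMod f) := by
  haveI := h.finite
  obtain ⟨as, has⟩ := exists_lift_list (r := fun (a : P) (s : S) => f a = Matrix.scalar κ s) rs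
    h.act
  have hmem : ∀ a ∈ as, a ∈ maximalIdeal P := by
    intro a ha
    obtain ⟨i, hi, rfl⟩ := List.getElem_of_mem ha
    have h2 : i < rs.length := by rw [← has.length_eq]; exact hi
    refine h.mem_max (s := rs[i]) ?_ (has.get hi h2)
    rw [← h.max]
    exact Ideal.subset_span (List.getElem_mem h2)
  have h1 : IsWeaklyRegular (PMod f) as := by
    let E : PMod f ≃+ (κ → S) := AddEquiv.refl (κ → S)
    exact (E.isWeaklyRegular_congr (has.imp fun a s hs x => smul_eq_smul f hs x)).2
      (isWeaklyRegular_pi h.reg)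
  have h2 : IsRegular (PMod f) as :=
    (IsLocalRing.isRegular_iff_isWeaklyRegular_of_subset_maximalIdeal hmem).2 h1
  have h3 := supportDim_add_length_eq_supportDim_of_isRegular as h2
  rw [← h3, ← has.length_eq]
  have h4 : (0 : WithBot ℕ∞) ≤
      supportDim P (PMod f ⧸ Ideal.ofList as • (⊤ : Submodule P (PMod f))) := by
    haveI : Nontrivial (PMod f ⧸ Ideal.ofList as • (⊤ : Submodule P (PMod f))) :=
      Submodule.Quotient.nontrivial_iff.2 h2.top_ne_smul.symm
    haveI : Nonempty (Module.support P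
        (PMod f ⧸ Ideal.ofList as • (⊤ : Submodule P (PMod f)))) :=
      nonempty_support_of_nontrivial.to_subtype
    exact Order.krullDim_nonneg
  calc (as.length : WithBot ℕ∞) = 0 + as.length := by rw [zero_add]
    _ ≤ _ := by gcongr

end good

/-- The general shape of the data. -/
theorem good_limHom (hJ : ∀ m, ∀ᶠ n in atTop, J n ≤ (maximalIdeal S) ^ m)
    {rs : List S} (hreg : IsWeaklyRegular S rs) (hmax : Ideal.ofList rs = maximalIdeal S)
    (ρ : ∀ n, P →+* Matrix κ κ (S ⧸ J n))
    (hrs : ∀ n, ∀ s ∈ rs, ∃ a : P, ρ n a = Matrix.scalar κ (Ideal.Quotient.mk (J n) s)) :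
    Good (limHom hJ ρ) rs where
  reg := hreg
  max := hmax
  cont := ⟨cexp S κ, fun _ _ hx i j => limHom_mem_pow hJ ρ hx i j⟩
  act := by
    intro s hs
    choose a ha using fun n => hrs n s hs
    obtain ⟨L, hL⟩ := exists_LimP a
    refine ⟨L, ?_⟩
    refine (LimM_limHom hJ ρ hL).unique (LimM.const hJ (Matrix.scalar κ s)) ?_
    refine Eventually.of_forall fun n => ?_
    rw [ha n]
    ext i j
    simp [Matrix.scalar_apply, Matrix.diagonal_apply]
    split_ifs <;> simp

theorem limHom_eq_zero (hJ : ∀ m, ∀ᶠ n in atTop, J n ≤ (maximalIdeal S) ^ m)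
    (ρ : ∀ n, P →+* Matrix κ κ (S ⧸ J n)) {x : ℕ → P} {L : P} (hx : LimP x L)
    (h : ∀ n, ρ n (x n) = 0) : limHom hJ ρ L = 0 := by
  refine (LimM_limHom hJ ρ hx).unique (LimM.const hJ 0) ?_
  refine Eventually.of_forall fun n => ?_
  rw [h n]
  ext i j
  simp

/-- Limits of relations: if `x n` lies in the ideal generated by `y 1 n, …, y k n` and the kernel
of `ρ n`, up to a power of the maximal ideal, then so does the limit. -/
theorem mem_of_limit (hJ : ∀ m, ∀ᶠ n in atTop, J n ≤ (maximalIdeal S) ^ m)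
    (ρ : ∀ n, P →+* Matrix κ κ (S ⧸ J n)) {ι : Type*} [Fintype ι] {y : ι → ℕ → P} {Y : ι → P}
    (hy : ∀ i, LimP (y i) (Y i)) (x : P) (m : ℕ)
    (h : ∀ n, x ∈ Ideal.span (Set.range fun i => y i n) ⊔ RingHom.ker (ρ n) ⊔
      (maximalIdeal P) ^ m) :
    x ∈ Ideal.span (Set.range Y) ⊔ RingHom.ker (limHom hJ ρ) ⊔ (maximalIdeal P) ^ m := by
  classical
  have h1 : ∀ n, ∃ (c : ι → P) (k : P) (μ : P), ρ n k = 0 ∧ μ ∈ (maximalIdeal P) ^ m ∧
      x = (∑ i, c i * y i n + k) + μ := by
    intro n
    obtain ⟨a, ha, μ, hμ, rfl⟩ := Submodule.mem_sup.1 (h n)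
    obtain ⟨b, hb, k, hk, rfl⟩ := Submodule.mem_sup.1 ha
    obtain ⟨c, hc⟩ := (Ideal.mem_span_range_iff_exists_fun).1 hb
    exact ⟨c, k, μ, hk, hμ, by rw [hc]⟩
  choose c k μ hk hμ hx using h1
  have hc : ∀ i, ∃ L, LimP (fun n => c n i) L := fun i => exists_LimP _
  choose C hC using hc
  obtain ⟨K, hK⟩ := exists_LimP k
  obtain ⟨M, hM⟩ := exists_LimP μ
  have e : x = (∑ i, C i * Y i + K) + M := by
    refine LimP.unique (x := fun _ => x) (LimS.const hbot x) ?_
    have h2 := ((LimS.sum hbot Finset.univ (fun i _ => (hC i).mul (hy i))).add hK).add hM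
    have h3 : (fun n => (∑ i, c n i * y i n + k n) + μ n) = fun _ => x := by
      funext n; exact (hx n).symm
    rw [h3] at h2
    exact h2
  rw [e]
  refine Submodule.add_mem_sup (Submodule.add_mem_sup ?_ ?_) ?_
  · exact sum_mem fun i _ => Ideal.mul_mem_left _ _ (Ideal.subset_span ⟨i, rfl⟩)
  · exact limHom_eq_zero hJ ρ hK hk
  · exact hM.mem_pow (Eventually.of_forall hμ)

/-- The dimension inequality for patched modules. -/
theorem length_le [Nonempty κ] (hJ : ∀ m, ∀ᶠ n in atTop, J n ≤ (maximalIdeal S) ^ m)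
    {rs : List S} (hreg : IsWeaklyRegular S rs) (hmax : Ideal.ofList rs = maximalIdeal S)
    (ρ : ∀ n, P →+* Matrix κ κ (S ⧸ J n))
    (hrs : ∀ n, ∀ s ∈ rs, ∃ a : P, ρ n a = Matrix.scalar κ (Ideal.Quotient.mk (J n) s))
    {s g K : ℕ} (w : Fin s → ℕ → P) (z : Fin g → ℕ → P) (φ : Fin K → ℕ → P)
    (hw : ∀ i n, w i n ∈ maximalIdeal P) (hz : ∀ i n, z i n ∈ maximalIdeal P)
    (e' : ℕ)
    (hφ : ∀ k n, ∃ C : Fin s → Matrix κ κ (S ⧸ J n),
      ρ n (φ k n ^ e') = ∑ j, ρ n (w j n) * C j)
    (ϖ : P) (e : ℕ)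
    (hϖ : ∀ n, ϖ ^ e ∈ Ideal.span (Set.range fun k => φ k n) ⊔ RingHom.ker (ρ n))
    (hgen : ∀ n, maximalIdeal P ≤ Ideal.span {ϖ} ⊔ Ideal.span (Set.range fun i => z i n) ⊔
      Ideal.span (Set.range fun k => φ k n) ⊔ RingHom.ker (ρ n) ⊔ (maximalIdeal P) ^ 2) :
    rs.length ≤ s + g := by
  classical
  set F := limHom hJ ρ with hF
  have hG : Good F rs := good_limHom hJ hreg hmax ρ hrs
  haveI := hG.finite
  choose W hW using fun i => exists_LimP (w i)
  choose Z hZ using fun i => exists_LimP (z i)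
  choose Φ hΦ using fun i => exists_LimP (φ i)
  -- the action of the `Φ`
  have h1 : ∀ k, ∃ C : Fin s → Matrix κ κ S, F (Φ k ^ e') = ∑ j, F (W j) * C j := by
    intro k
    choose C hC using hφ k
    choose D hD using fun j => exists_LimM hJ (fun n => C n j)
    refine ⟨D, ?_⟩
    have h2 := LimM.sum hJ Finset.univ (fun j _ => LimM.mul hJ (LimM_limHom hJ ρ (hW j)) (hD j))
    have h3 : LimP (fun n => φ k n ^ e') (Φ k ^ e') := by
      clear hφ C hC D hD h2
      induction e' with
      | zero => simpa using LimS.const hbot (1 : P)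
      | succ e ih =>
        simp only [pow_succ]
        exact ih.mul (hΦ k)
    exact (LimM_limHom hJ ρ h3).unique h2 (Eventually.of_forall fun n => hC n)
  set ws : List P := List.ofFn W ++ List.ofFn Z with hws
  have hlen : ws.length = s + g := by simp [hws]
  have hwsm : ∀ x ∈ ws, x ∈ maximalIdeal P := by
    intro x hx
    rw [hws, List.mem_append, List.mem_ofFn, List.mem_ofFn] at hx
    have hp : ∀ {x : ℕ → P} {L : P}, LimP x L → (∀ n, x n ∈ maximalIdeal P) →
        L ∈ maximalIdeal P := by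
      intro x L hL hx
      have := hL.mem_pow (m := 1) (Eventually.of_forall fun n => by rw [pow_one]; exact hx n)
      rwa [pow_one] at this
    rcases hx with ⟨i, rfl⟩ | ⟨i, rfl⟩
    · exact hp (hW i) (hw i)
    · exact hp (hZ i) (hz i)
  set A := annihilator P (PMod F ⧸ Ideal.ofList ws • (⊤ : Submodule P (PMod F))) with hA
  have hWA : ∀ x ∈ ws, x ∈ A := by
    intro x hx
    rw [hA, Module.mem_annihilator]
    intro q
    obtain ⟨v, rfl⟩ := Submodule.mkQ_surjective _ q
    rw [← map_smul]
    simp only [Submodule.mkQ_apply, Submodule.Quotient.mk_eq_zero]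
    exact Submodule.smul_mem_smul (Ideal.subset_span hx) trivial
  have hker : RingHom.ker F ≤ A := by
    intro x hx
    rw [hA, Module.mem_annihilator]
    intro q
    obtain ⟨v, rfl⟩ := Submodule.mkQ_surjective _ q
    rw [← map_smul, (Module.mem_annihilator.1 ((mem_annihilator_iff F).2 hx)) v, map_zero]
  have hΦA : Ideal.span (Set.range Φ) ≤ A.radical := by
    rw [Ideal.span_le]
    rintro _ ⟨k, rfl⟩
    refine ⟨e', ?_⟩
    rw [hA, Module.mem_annihilator]
    intro q
    obtain ⟨v, rfl⟩ := Submodule.mkQ_surjective _ q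
    rw [← map_smul]
    simp only [Submodule.mkQ_apply, Submodule.Quotient.mk_eq_zero]
    obtain ⟨C, hC⟩ := h1 k
    have e1 : Φ k ^ e' • v =
        ∑ j, W j • (show PMod F from (C j).mulVec (show κ → S from v)) := by
      have e2 : ∀ v : κ → S, (F (Φ k ^ e')).mulVec v =
          ∑ j, (F (W j)).mulVec ((C j).mulVec v) := by
        intro v
        rw [hC, Matrix.sum_mulVec]
        exact Finset.sum_congr rfl fun j _ => by rw [Matrix.mulVec_mulVec]
      exact e2 v
    rw [e1]
    refine sum_mem fun j _ => Submodule.smul_mem_smul (Ideal.subset_span ?_) trivial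
    show W j ∈ ws
    rw [hws, List.mem_append, List.mem_ofFn]
    exact Or.inl ⟨j, rfl⟩
  have hZA : Ideal.span (Set.range Z) ≤ A := by
    rw [Ideal.span_le]
    rintro _ ⟨k, rfl⟩
    apply hWA
    rw [hws, List.mem_append, List.mem_ofFn, List.mem_ofFn]
    exact Or.inr ⟨k, rfl⟩
  -- generation in the limit
  have hgen' : maximalIdeal P ≤ Ideal.span {ϖ} ⊔ A.radical := by
    have h2 : maximalIdeal P ≤ (Ideal.span {ϖ} ⊔ A.radical) ⊔ (maximalIdeal P) ^ 2 := by
      intro x hx
      let y : (Unit ⊕ Fin g) ⊕ Fin K → ℕ → P :=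
        Sum.elim (Sum.elim (fun _ _ => ϖ) z) φ
      let Y : (Unit ⊕ Fin g) ⊕ Fin K → P := Sum.elim (Sum.elim (fun _ => ϖ) Z) Φ
      have hy : ∀ i, LimP (y i) (Y i) := by
        rintro ((i | i) | i)
        · exact LimS.const hbot ϖ
        · exact hZ i
        · exact hΦ i
      have h3 := mem_of_limit hJ ρ hy x 2 (fun n => by
        have h4 := hgen n hx
        refine SetLike.le_def.1 ?_ h4
        refine sup_le (sup_le (sup_le (sup_le ?_ ?_) ?_) ?_) le_sup_right
        · refine le_trans ?_ (le_sup_left.trans le_sup_left)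
          rw [Ideal.span_le, Set.singleton_subset_iff]
          exact Ideal.subset_span ⟨Sum.inl (Sum.inl ()), rfl⟩
        · refine le_trans ?_ (le_sup_left.trans le_sup_left)
          rw [Ideal.span_le]
          rintro _ ⟨i, rfl⟩
          exact Ideal.subset_span ⟨Sum.inl (Sum.inr i), rfl⟩
        · refine le_trans ?_ (le_sup_left.trans le_sup_left)
          rw [Ideal.span_le]
          rintro _ ⟨i, rfl⟩
          exact Ideal.subset_span ⟨Sum.inr i, rfl⟩
        · exact le_sup_right.trans le_sup_left)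
      refine SetLike.le_def.1 ?_ h3
      refine sup_le (sup_le ?_ ?_) le_sup_right
      · refine le_trans ?_ le_sup_left
        rw [Ideal.span_le]
        rintro _ ⟨(i | i) | i, rfl⟩
        · exact (le_sup_left : Ideal.span {ϖ} ≤ _) (Ideal.subset_span rfl)
        · exact (le_sup_right : A.radical ≤ _) (A.le_radical (hZA (Ideal.subset_span ⟨i, rfl⟩)))
        · exact (le_sup_right : A.radical ≤ _) (hΦA (Ideal.subset_span ⟨i, rfl⟩))
      · exact (hker.trans A.le_radical).trans (le_sup_right.trans le_sup_left)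
    have h3 : maximalIdeal P ≤ (Ideal.span {ϖ} ⊔ A.radical) ⊔ maximalIdeal P • maximalIdeal P := by
      rw [smul_eq_mul, ← sq]; exact h2
    exact Submodule.le_of_le_smul_of_le_jacobson_bot
      (IsNoetherian.noetherian (maximalIdeal P)) (maximalIdeal_le_jacobson _) h3
  have hϖ' : ϖ ^ e ∈ A.radical := by
    -- use a large power of the maximal ideal and closedness
    have h2 : ∀ m, ϖ ^ e ∈ (Ideal.span (Set.range Φ) ⊔ RingHom.ker F) ⊔ (maximalIdeal P) ^ m := by
      intro m
      exact mem_of_limit hJ ρ hΦ (ϖ ^ e) m (fun n => Submodule.mem_sup_left (hϖ n))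
    have h3 : ϖ ^ e ∈ Ideal.span (Set.range Φ) ⊔ RingHom.ker F := by
      set I := Ideal.span (Set.range Φ) ⊔ RingHom.ker F with hI
      by_cases htop : I = ⊤
      · rw [htop]; trivial
      haveI : Nontrivial (P ⧸ I) := Ideal.Quotient.nontrivial_iff.2 htop
      have h4 : IsHausdorff (maximalIdeal P) (P ⧸ I) := inferInstance
      rw [← Ideal.Quotient.eq_zero_iff_mem]
      apply h4.haus
      intro m
      rw [SModEq.zero]
      obtain ⟨a, ha, b, hb, hab⟩ := Submodule.mem_sup.1 (h2 m)
      have h5 : Ideal.Quotient.mk I (ϖ ^ e) = b • (1 : P ⧸ I) := by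
        rw [← hab, map_add, Ideal.Quotient.eq_zero_iff_mem.2 ha, zero_add, Algebra.smul_def,
          mul_one]
        rfl
      rw [h5]
      exact Submodule.smul_mem_smul hb trivial
    exact (sup_le hΦA (hker.trans A.le_radical)) h3
  have hrad : maximalIdeal P ≤ A.radical := by
    refine hgen'.trans (sup_le ?_ le_rfl)
    rw [Ideal.span_le, Set.singleton_subset_iff]
    have h7 : ϖ ∈ A.radical.radical := ⟨e, hϖ'⟩
    rwa [Ideal.radical_idem] at h7
  have hfin := supportDim_le_length ws hwsm hrad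
  have h5 := hG.le_supportDim.trans hfin
  rw [hlen] at h5
  exact_mod_cast h5

section points

variable {O' : Type*} [CommRing O'] [IsLocalRing O'] [IsNoetherianRing O']
  [IsAdicComplete (maximalIdeal O') O'] [Finite (ResidueField O')]

/-- A ring homomorphism as a homomorphism to `1 × 1` matrices. -/
noncomputable def ptM (x : P →+* O') : P →+* Matrix Unit Unit (O' ⧸ (⊥ : Ideal O')) :=
  ((Matrix.uniqueRingEquiv (m := Unit) (A := O' ⧸ (⊥ : Ideal O'))).symm.toRingHom.comp
    (Ideal.Quotient.mk ⊥)).comp x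

theorem ptM_apply (x : P →+* O') (a : P) : ptM x a () () = Ideal.Quotient.mk ⊥ (x a) := rfl

/-- The limit of a sequence of points. -/
noncomputable def limPt (x : ℕ → P →+* O') : P →+* O' :=
  (Matrix.uniqueRingEquiv (m := Unit) (A := O')).toRingHom.comp
    (limHom (J := fun _ => (⊥ : Ideal O')) hbot fun n => ptM (x n))

theorem limPt_spec (x : ℕ → P →+* O') {h : ℕ → P} {H : P} (hH : LimP h H) :
    LimP (fun n => x n (h n)) (limPt x H) := by
  obtain ⟨y, hy, hL⟩ := LimM_limHom (J := fun _ => (⊥ : Ideal O')) hbot (fun n => ptM (x n)) hH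
  have h1 := hL () ()
  have h2 : (fun n => x n (h n)) = fun n => y n () () := by
    funext n
    have h3 := congrFun (congrFun (hy n) ()) ()
    have h4 : Ideal.Quotient.mk (⊥ : Ideal O') (y n () ()) =
      Ideal.Quotient.mk (⊥ : Ideal O') (x n (h n)) := h3
    have h5 := Ideal.Quotient.eq.1 h4
    rw [Ideal.mem_bot, sub_eq_zero] at h5
    exact h5.symm
  rw [h2]
  exact h1

theorem limPt_eq (x : ℕ → P →+* O') {h : ℕ → P} {H : P} (hH : LimP h H) {c : O'}
    (hc : ∀ n, x n (h n) = c) : limPt x H = c := by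
  refine (limPt_spec x hH).unique ?_
  simp only [hc]
  exact LimS.const hbot c

/-- The patching theorem for points, assuming that the annihilator vanishes at the point. -/
theorem eq_zero_of_limit [Nonempty κ] [IsDomain O']
    (hJ : ∀ m, ∀ᶠ n in atTop, J n ≤ (maximalIdeal S) ^ m)
    {rs : List S} (hreg : IsWeaklyRegular S rs) (hmax : Ideal.ofList rs = maximalIdeal S)
    (ρ : ∀ n, P →+* Matrix κ κ (S ⧸ J n))
    (hrs : ∀ n, ∀ s ∈ rs, ∃ a : P, ρ n a = Matrix.scalar κ (Ideal.Quotient.mk (J n) s))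
    (x : ℕ → P →+* O') {r : ℕ} (ys : Fin r → S) (a : Fin r → ℕ → P)
    (ha : ∀ i n, ρ n (a i n) = Matrix.scalar κ (Ideal.Quotient.mk (J n) (ys i)))
    (hxa : ∀ i n, x n (a i n) = 0)
    (hann : ∀ b : P, limHom hJ ρ b = 0 → limPt x b = 0)
    (h : ℕ → P)
    (hh : ∀ n i j, ρ n (h n) i j ∈ (Ideal.span (Set.range ys)).map (Ideal.Quotient.mk (J n)))
    (c : O') (hc : ∀ n, x n (h n) = c) : c = 0 := by
  classical
  set F := limHom hJ ρ with hF
  have hG : Good F rs := good_limHom hJ hreg hmax ρ hrs
  haveI := hG.finite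
  obtain ⟨H, hH⟩ := exists_LimP h
  choose A hA using fun i => exists_LimP (a i)
  have hFA : ∀ i, F (A i) = Matrix.scalar κ (ys i) := by
    intro i
    refine (LimM_limHom hJ ρ (hA i)).unique (LimM.const hJ (Matrix.scalar κ (ys i))) ?_
    refine Eventually.of_forall fun n => ?_
    rw [ha i n]
    ext k l
    simp [Matrix.scalar_apply, Matrix.diagonal_apply]
    split_ifs <;> simp
  have hxA : ∀ i, limPt x (A i) = 0 := fun i => limPt_eq x (hA i) (hxa i)
  have hxH : limPt x H = c := limPt_eq x hH hc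
  -- the limit acts by matrices with entries in the ideal
  have h1 : ∃ D : Fin r → Matrix κ κ S, F H = ∑ i, F (A i) * D i := by
    have h2 : ∀ n, ∃ D : Fin r → Matrix κ κ (S ⧸ J n), ρ n (h n) = ∑ i, ρ n (a i n) * D i := by
      intro n
      have h3 : ∀ k l, ∃ d : Fin r → S ⧸ J n,
          ρ n (h n) k l = ∑ i, Ideal.Quotient.mk (J n) (ys i) * d i := by
        intro k l
        have h4 := hh n k l
        rw [Ideal.map_span, ← Set.range_comp] at h4
        obtain ⟨d, hd⟩ := (Ideal.mem_span_range_iff_exists_fun).1 h4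
        exact ⟨d, by rw [← hd]; exact Finset.sum_congr rfl fun i _ => mul_comm _ _⟩
      choose d hd using h3
      refine ⟨fun i => Matrix.of fun k l => d k l i, ?_⟩
      ext k l
      rw [hd, Matrix.sum_apply]
      refine Finset.sum_congr rfl fun i _ => ?_
      rw [ha i n, Matrix.scalar_apply, Matrix.diagonal_mul]
      rfl
    choose D hD using h2
    choose E hE using fun j => exists_LimM hJ (fun n => D n j)
    refine ⟨E, ?_⟩
    have h2 := LimM.sum hJ Finset.univ (fun j _ => LimM.mul hJ (LimM_limHom hJ ρ (hA j)) (hE j))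
    exact (LimM_limHom hJ ρ hH).unique h2 (Eventually.of_forall fun n => hD n)
  obtain ⟨D, hD⟩ := h1
  let I : Ideal P := Ideal.span (Set.range A)
  have h2 : (LinearMap.lsmul P (PMod F) H).range ≤ I • (⊤ : Submodule P (PMod F)) := by
    rintro _ ⟨v, rfl⟩
    rw [LinearMap.lsmul_apply]
    have e1 : H • v = ∑ j, A j • (show PMod F from (D j).mulVec (show κ → S from v)) := by
      have e2 : ∀ v : κ → S, (F H).mulVec v = ∑ j, (F (A j)).mulVec ((D j).mulVec v) := by
        intro v
        rw [hD, Matrix.sum_mulVec]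
        exact Finset.sum_congr rfl fun j _ => by rw [Matrix.mulVec_mulVec]
      exact e2 v
    rw [e1]
    exact sum_mem fun j _ => Submodule.smul_mem_smul (Ideal.subset_span ⟨j, rfl⟩) trivial
  obtain ⟨q, hq, _, hq2, hq3⟩ :=
    LinearMap.exists_monic_and_natDegree_eq_and_coeff_mem_pow_and_aeval_eq_zero P _ I h2
  have h3 : F (q.eval H) = 0 := by
    rw [← mem_annihilator_iff, Module.mem_annihilator]
    intro v
    have h4 := LinearMap.congr_fun hq3 v
    have h5 : Polynomial.aeval (LinearMap.lsmul P (PMod F) H) q =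
        LinearMap.lsmul P (PMod F) (q.eval H) := by
      have : LinearMap.lsmul P (PMod F) H = Algebra.lsmul P P (PMod F) H := rfl
      rw [this, Polynomial.aeval_algHom_apply]
      simp
      rfl
    rw [h5] at h4
    exact h4
  have h6 := hann _ h3
  have h7 : limPt x (q.eval H) = c ^ q.natDegree := by
    rw [Polynomial.eval_eq_sum_range, map_sum, Finset.sum_range_succ]
    rw [Finset.sum_eq_zero, zero_add, map_mul, map_pow, hxH]
    · have : q.coeff q.natDegree = 1 := hq
      rw [this, map_one, one_mul]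
    · intro i hi
      rw [Finset.mem_range] at hi
      have h8 : q.coeff i ∈ I := by
        have := hq2 i
        refine (Ideal.pow_le_self ?_) this
        omega
      have h9 : limPt x (q.coeff i) = 0 := by
        have : I ≤ RingHom.ker (limPt x) := by
          rw [Ideal.span_le]
          rintro _ ⟨i, rfl⟩
          exact hxA i
        exact this h8
      rw [map_mul, h9, zero_mul]
  rw [h7] at h6
  exact eq_zero_of_pow_eq_zero h6

/-- The annihilator of the patched module vanishes when `P` is a domain of the right dimension. -/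
theorem Good.eq_zero_of_isDomain [Nonempty κ] [IsDomain P] {f : P →+* Matrix κ κ S}
    {rs : List S} (h : Good f rs) (hdim : ringKrullDim P ≤ rs.length) {b : P} (hb : f b = 0) :
    b = 0 := by
  by_contra hne
  haveI := h.finite
  have h1 := h.le_supportDim
  rw [supportDim_eq_ringKrullDim_quotient_annihilator] at h1
  have h2 : ringKrullDim (P ⧸ annihilator P (PMod f)) ≤ ringKrullDim (P ⧸ Ideal.span {b}) := by
    refine ringKrullDim_le_of_surjective
      (Ideal.Quotient.factor (S := Ideal.span {b}) (T := annihilator P (PMod f)) ?_)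
      (Ideal.Quotient.factor_surjective _)
    rw [Ideal.span_le, Set.singleton_subset_iff]
    exact (mem_annihilator_iff f).2 hb
  have h3 := ringKrullDim_quotient_succ_le_of_nonZeroDivisor
    (mem_nonZeroDivisors_of_ne_zero hne)
  have h4 : (rs.length : WithBot ℕ∞) + 1 ≤ rs.length := by
    calc (rs.length : WithBot ℕ∞) + 1 ≤ ringKrullDim (P ⧸ Ideal.span {b}) + 1 := by
          gcongr; exact h1.trans h2
      _ ≤ ringKrullDim P := h3
      _ ≤ rs.length := hdim
  have h5 : (rs.length + 1 : ℕ) ≤ rs.length := by exact_mod_cast h4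
  omega

end points

end Fermat.Agent.Patch
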