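import Fermat.Agent.Patch.PS
import Fermat.Agent.Patch.Main
import Fermat.Prelude.Thm_IsLocalRing_isAdicComplete_of_module_finite

/-!
# Patching from level data
-/

set_option autoImplicit false
set_option linter.unusedSectionVars false
set_option linter.style.haveILetI false

namespace Fermat.Agent.Patch

open IsLocalRing Filter RingTheory.Sequence

/-- The data at level `n` used in the patching argument. -/
structure PLev (O : Type) [CommRing O] [IsLocalRing O] (ϖ : O) (p r s g K e' e : ℕ)
    (κ : Type) [Fintype κ] [DecidableEq κ] (n : ℕ) where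
  A : Type
  [crA : CommRing A]
  [lrA : IsLocalRing A]
  [nrA : IsNoetherianRing A]
  [algA : Algebra O A]
  [finA : Module.Finite O A]
  [lhA : IsLocalHom (algebraMap O A)]
  D : Type
  [crD : CommRing D]
  [lrD : IsLocalRing D]
  [nrD : IsNoetherianRing D]
  [algD : Algebra O D]
  [finD : Module.Finite O D]
  [lhD : IsLocalHom (algebraMap O D)]
  δ : Fin r → D
  f : A →ₐ[O] Matrix κ κ D
  resA : ∀ t : A, ∃ a : O, t - algebraMap O A a ∈ maximalIdeal A
  resD : ∀ t : D, ∃ a : O, t - algebraMap O D a ∈ maximalIdeal D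
  δ1 : ∀ i, δ i - 1 ∈ maximalIdeal D
  genD : maximalIdeal D ≤ (maximalIdeal O).map (algebraMap O D) ⊔
      Ideal.span (Set.range fun i => δ i - 1) ⊔ maximalIdeal D ^ 2
  univ : ∀ (B : Type) [CommRing B] [Algebra O B] (u : Fin r → B), (∀ i, u i ^ p ^ n = 1) →
    ∃ h : D →ₐ[O] B, ∀ i, h (δ i) = u i
  dia : ∀ i, ∃ a : A, f a = Matrix.scalar κ (δ i)
  w : Fin s → A
  z : Fin g → A
  φ : Fin K → A
  hw : ∀ i, w i ∈ maximalIdeal A
  hz : ∀ i, z i ∈ maximalIdeal A
  hφm : ∀ i, φ i ∈ maximalIdeal A
  hφ : ∀ k, ∃ C : Fin s → Matrix κ κ D, f (φ k ^ e') = ∑ j, f (w j) * C j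
  hϖ : (algebraMap O A ϖ) ^ e ∈ Ideal.span (Set.range φ)
  hgen : maximalIdeal A ≤ Ideal.span {algebraMap O A ϖ} ⊔ Ideal.span (Set.range z) ⊔
    Ideal.span (Set.range φ) ⊔ maximalIdeal A ^ 2

theorem one_add_pow_sub_one_mem {R : Type*} [CommRing R] {I : Ideal R} {p : ℕ}
    (hp : (p : R) ∈ I) {x : R} (hx : x ∈ I) (n : ℕ) : (1 + x) ^ p ^ n - 1 ∈ I ^ (n + 1) := by
  induction n with
  | zero => simpa using hx
  | succ n ih =>
    obtain ⟨y, hy⟩ : ∃ y, (1 + x) ^ p ^ n = 1 + y := ⟨(1 + x) ^ p ^ n - 1, by ring⟩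
    have hy' : y ∈ I ^ (n + 1) := by rwa [hy, add_sub_cancel_left] at ih
    rw [pow_succ p, pow_mul, hy]
    have h1 : (1 + y) ^ p - 1 = ∑ i ∈ Finset.range p, (1 + y) ^ i * y := by
      have := geom_sum_mul (1 + y) p
      rw [add_sub_cancel_left] at this
      rw [← this, Finset.sum_mul]
    rw [h1, ← Finset.sum_mul]
    have h2 : (∑ i ∈ Finset.range p, (1 + y) ^ i) ∈ I := by
      have h3 : ∀ i : ℕ, (1 + y) ^ i - 1 ∈ I := by
        intro i
        obtain ⟨c, hc⟩ := sub_one_dvd_pow_sub_one (1 + y) i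
        rw [hc, add_sub_cancel_left]
        exact I.mul_mem_right _ (Ideal.pow_le_self (by omega) hy')
      have h4 : (∑ i ∈ Finset.range p, (1 + y) ^ i) =
          ∑ i ∈ Finset.range p, ((1 + y) ^ i - 1) + p := by
        rw [Finset.sum_sub_distrib]
        simp
      rw [h4]
      exact I.add_mem (Ideal.sum_mem _ fun i _ => h3 i) hp
    rw [pow_succ' I]
    exact Ideal.mul_mem_mul h2 hy'

variable {O : Type} [CommRing O] [IsDomain O] [IsLocalRing O] [IsNoetherianRing O]
  [IsAdicComplete (maximalIdeal O) O] [Finite (ResidueField O)] {ϖ : O}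
  (hϖ0 : ϖ ≠ 0) (hϖ : maximalIdeal O = Ideal.span {ϖ}) {p : ℕ} (hp : (p : O) ∈ maximalIdeal O)

section quot

variable {r n : ℕ} {D : Type} [CommRing D] [Algebra O D] (F : MvPowerSeries (Fin r) O →ₐ[O] D)
  {δ : Fin r → D} (hF : ∀ i, F (MvPowerSeries.X i) = δ i - 1)
  (univ : ∀ (B : Type) [CommRing B] [Algebra O B] (u : Fin r → B), (∀ i, u i ^ p ^ n = 1) →
    ∃ h : D →ₐ[O] B, ∀ i, h (δ i) = u i)

include hp hF univ in
theorem ker_le_max_pow : RingHom.ker F ≤ maximalIdeal (MvPowerSeries (Fin r) O) ^ (n + 1) := by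
  set I := maximalIdeal (MvPowerSeries (Fin r) O) with hI
  have hpI : (p : MvPowerSeries (Fin r) O) ∈ I := by
    have h1 := C_mem_max (n := r) hp
    rwa [map_natCast] at h1
  have hXI : ∀ i : Fin r, (MvPowerSeries.X i : MvPowerSeries (Fin r) O) ∈ I := fun i =>
    vI_le_max (Ideal.subset_span ⟨i, rfl⟩)
  obtain ⟨h, hh⟩ := univ (MvPowerSeries (Fin r) O ⧸ I ^ (n + 1))
    (fun i => Ideal.Quotient.mk _ (1 + MvPowerSeries.X i)) (fun i => by
      rw [← map_pow, ← map_one (Ideal.Quotient.mk (I ^ (n + 1))), ← sub_eq_zero, ← map_sub,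
        Ideal.Quotient.eq_zero_iff_mem]
      exact one_add_pow_sub_one_mem hpI (hXI i) n)
  have h1 : h.comp F = Ideal.Quotient.mkₐ O (I ^ (n + 1)) := by
    refine algHom_eq _ _ (I.map (Ideal.Quotient.mk (I ^ (n + 1)))) (m := n + 1) ?_ (fun i => ?_)
      fun i => ?_
    · rw [← Ideal.map_pow]
      exact Ideal.map_quotient_self _
    · rw [AlgHom.comp_apply, hF, map_sub, hh, map_one, map_add, map_one, add_sub_cancel_left]
      exact Ideal.mem_map_of_mem _ (hXI i)
    · rw [AlgHom.comp_apply, hF, map_sub, hh, map_one, map_add, map_one, add_sub_cancel_left]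
      rfl
  intro x hx
  rw [RingHom.mem_ker] at hx
  have h2 := congrArg (fun G : MvPowerSeries (Fin r) O →ₐ[O] _ => G x) h1
  simp only [AlgHom.comp_apply] at h2
  rw [hx, map_zero] at h2
  exact Ideal.Quotient.eq_zero_iff_mem.1 h2.symm

end quot

variable {r s g K e' e : ℕ} {κ : Type} [Fintype κ] [DecidableEq κ] [Nonempty κ]

include hϖ0 hϖ hp in
/-- **The numerical inequality of the patching argument.** -/
theorem patch_le (X : ∀ n, PLev O ϖ p r s g K e' e κ n) : r + 1 ≤ s + g := by
  classical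
  let S := MvPowerSeries (Fin r) O
  let P := MvPowerSeries (Fin (g + K)) O
  have hP : ∀ n, ∃ (J : Ideal S) (ρ : P →+* Matrix κ κ (S ⧸ J)) (w : Fin s → P) (z : Fin g → P)
      (φ : Fin K → P), J ≤ maximalIdeal S ^ (n + 1) ∧
      (∀ s ∈ Patching.rs r ϖ, ∃ a : P, ρ a = Matrix.scalar κ (Ideal.Quotient.mk J s)) ∧
      (∀ i, w i ∈ maximalIdeal P) ∧ (∀ i, z i ∈ maximalIdeal P) ∧
      (∀ k, ∃ C : Fin s → Matrix κ κ (S ⧸ J), ρ (φ k ^ e') = ∑ j, ρ (w j) * C j) ∧
      (algebraMap O P ϖ) ^ e ∈ Ideal.span (Set.range φ) ⊔ RingHom.ker ρ ∧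
      maximalIdeal P ≤ Ideal.span {algebraMap O P ϖ} ⊔ Ideal.span (Set.range z) ⊔
        Ideal.span (Set.range φ) ⊔ RingHom.ker ρ ⊔ (maximalIdeal P) ^ 2 := by
    intro n
    obtain @⟨A, crA, lrA, nrA, algA, finA, lhA, D, crD, lrD, nrD, algD, finD, lhD, δ, f, resA, resD,
      δ1, genD, univ, dia, w, z, φ, hw, hz, hφm, hφ, hϖA, hgen⟩ := X n
    haveI : IsAdicComplete (maximalIdeal A) A :=
      IsLocalRing.isAdicComplete_of_module_finite (𝒪 := O)
    haveI : IsAdicComplete (maximalIdeal D) D :=
      IsLocalRing.isAdicComplete_of_module_finite (𝒪 := O)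
    obtain ⟨F, hF⟩ := exists_eval (O := O) (fun i => δ i - 1) δ1
    have hFs : Function.Surjective F := surjective_of_gen F resD (by simpa only [hF] using genD)
    obtain ⟨G, hG⟩ := exists_eval (O := O) (Fin.append z φ) (fun i => by
      refine Fin.addCases (fun i => ?_) (fun i => ?_) i
      · rw [Fin.append_left]; exact hz i
      · rw [Fin.append_right]; exact hφm i)
    have hrange : Ideal.span (Set.range fun i => G (MvPowerSeries.X i)) =
        Ideal.span (Set.range z) ⊔ Ideal.span (Set.range φ) := by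
      rw [← Ideal.span_union]
      congr 1
      ext y
      simp only [hG, Set.mem_range, Set.mem_union]
      constructor
      · rintro ⟨i, rfl⟩
        refine Fin.addCases (fun i => ?_) (fun i => ?_) i
        · exact Or.inl ⟨i, (Fin.append_left _ _ _).symm⟩
        · exact Or.inr ⟨i, (Fin.append_right _ _ _).symm⟩
      · rintro (⟨i, rfl⟩ | ⟨i, rfl⟩)
        · exact ⟨Fin.castAdd K i, Fin.append_left _ _ _⟩
        · exact ⟨Fin.natAdd g i, Fin.append_right _ _ _⟩
    have hGs : Function.Surjective G := by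
      refine surjective_of_gen G resA ?_
      rw [hrange, hϖ, Ideal.map_span, Set.image_singleton, ← sup_assoc]
      exact hgen
    -- the level ring
    let J : Ideal S := RingHom.ker F
    let E : (S ⧸ J) ≃+* D := RingHom.quotientKerEquivOfSurjective (f := F.toRingHom) hFs
    have hE : ∀ x : S, E.symm (F x) = Ideal.Quotient.mk J x := by
      intro x
      rw [RingEquiv.symm_apply_eq]
      rfl
    let M : Matrix κ κ D →+* Matrix κ κ (S ⧸ J) := E.symm.toRingHom.mapMatrix
    have hM : ∀ d : D, M (Matrix.scalar κ d) = Matrix.scalar κ (E.symm d) := by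
      intro d
      ext i j
      simp only [M, RingHom.mapMatrix_apply, Matrix.map_apply, Matrix.scalar_apply,
        Matrix.diagonal_apply]
      split_ifs
      · rfl
      · exact map_zero _
    have hMinj : Function.Injective M := by
      intro x y hxy
      ext i j
      have h1 := congrFun (congrFun hxy i) j
      exact E.symm.injective h1
    let ρ : P →+* Matrix κ κ (S ⧸ J) := (M.comp f.toRingHom).comp G.toRingHom
    have hρ : ∀ x, ρ x = M (f (G x)) := fun x => rfl
    choose w' hw' using fun i => hGs (w i)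
    choose z' hz' using fun i => hGs (z i)
    choose φ' hφ' using fun i => hGs (φ i)
    have hmem : ∀ x : P, G x ∈ maximalIdeal A → x ∈ maximalIdeal P := by
      intro x hx
      rw [IsLocalRing.mem_maximalIdeal, mem_nonunits_iff] at hx ⊢
      exact fun hu => hx (hu.map G)
    have hsurjI : ∀ (I : Ideal P) (x : P), G x ∈ I.map G → x ∈ I ⊔ RingHom.ker ρ := by
      intro I x hx
      obtain ⟨y, hy, hxy⟩ := (Ideal.mem_map_iff_of_surjective G hGs).1 hx
      have h1 : x = y + (x - y) := by ring
      rw [h1]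
      refine Submodule.add_mem_sup hy ?_
      rw [RingHom.mem_ker, hρ, map_sub, hxy, sub_self, map_zero, map_zero]
    have hmapφ : (Ideal.span (Set.range φ')).map G = Ideal.span (Set.range φ) := by
      rw [Ideal.map_span, ← Set.range_comp]
      congr 2
      funext i
      exact hφ' i
    have hmapz : (Ideal.span (Set.range z')).map G = Ideal.span (Set.range z) := by
      rw [Ideal.map_span, ← Set.range_comp]
      congr 2
      funext i
      exact hz' i
    have hmapm : (maximalIdeal P).map G = maximalIdeal A := by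
      apply le_antisymm
      · rw [Ideal.map_le_iff_le_comap]
        intro x hx
        rw [Ideal.mem_comap]
        by_contra hne
        have hu : IsUnit (G x) := by
          by_contra hnu
          exact hne ((IsLocalRing.mem_maximalIdeal _).2 hnu)
        obtain ⟨y, hy⟩ := hGs ((hu.unit⁻¹ : Aˣ) : A)
        have h1 : G (1 - x * y) = 0 := by
          rw [map_sub, map_mul, map_one, hy]
          have h2 : G x * ((hu.unit⁻¹ : Aˣ) : A) = 1 := hu.mul_val_inv
          rw [h2, sub_self]
        have h2 : IsUnit (1 - x * y) := by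
          by_contra hnu
          have h3 : (1 : P) ∈ maximalIdeal P := by
            have h4 := Ideal.add_mem _ ((IsLocalRing.mem_maximalIdeal _).2 hnu)
              (Ideal.mul_mem_right y _ hx)
            rwa [sub_add_cancel] at h4
          exact (Ideal.ne_top_iff_one _).1 (maximalIdeal.isMaximal P).ne_top h3
        have h3 := h2.map G
        rw [h1] at h3
        exact not_isUnit_zero h3
      · intro x hx
        obtain ⟨y, rfl⟩ := hGs x
        exact Ideal.mem_map_of_mem G (hmem y hx)
    refine ⟨J, ρ, w', z', φ', ker_le_max_pow hp F hF univ, ?_, ?_, ?_, ?_, ?_, ?_⟩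
    · intro x hx
      rw [Patching.rs, List.mem_append, List.mem_map, List.mem_singleton] at hx
      obtain ⟨i, -, rfl⟩ | rfl := hx
      · obtain ⟨a, ha⟩ := dia i
        obtain ⟨b, hb⟩ := hGs (a - 1)
        refine ⟨b, ?_⟩
        rw [hρ, hb, map_sub, ha, map_one, ← map_one (Matrix.scalar κ), ← map_sub, hM, ← hF, hE]
      · refine ⟨algebraMap O P ϖ, ?_⟩
        rw [hρ, G.commutes, f.commutes]
        have h1 : algebraMap O (Matrix κ κ D) ϖ = Matrix.scalar κ (algebraMap O D ϖ) := by
          rw [Matrix.algebraMap_eq_diagonal]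
          rfl
        rw [h1, hM, ← F.commutes, hE]
    · intro i
      exact hmem _ (by rw [hw']; exact hw i)
    · intro i
      exact hmem _ (by rw [hz']; exact hz i)
    · intro k
      obtain ⟨C, hC⟩ := hφ k
      refine ⟨fun j => M (C j), ?_⟩
      rw [hρ, map_pow G, hφ', hC, map_sum]
      refine Finset.sum_congr rfl fun j _ => ?_
      rw [map_mul, hρ, hw']
    · apply hsurjI
      rw [hmapφ, map_pow, G.commutes]
      exact hϖA
    · intro x hx
      have h1 : G x ∈ (Ideal.span {algebraMap O P ϖ} ⊔ Ideal.span (Set.range z') ⊔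
          Ideal.span (Set.range φ') ⊔ maximalIdeal P ^ 2).map G := by
        rw [Ideal.map_sup, Ideal.map_sup, Ideal.map_sup, hmapφ, hmapz, Ideal.map_pow, hmapm,
          Ideal.map_span, Set.image_singleton, G.commutes]
        refine hgen ?_
        rw [← hmapm]
        exact Ideal.mem_map_of_mem G hx
      have h2 := hsurjI _ _ h1
      rwa [sup_assoc, sup_comm (maximalIdeal P ^ 2), ← sup_assoc] at h2
  choose J ρ w z φ hJ hrs hw hz hφ hϖP hgen using hP
  have hJ' : ∀ m, ∀ᶠ n in atTop, J n ≤ (maximalIdeal S) ^ m := by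
    intro m
    filter_upwards [eventually_ge_atTop m] with n hn
    exact (hJ n).trans (Ideal.pow_le_pow_right (by omega))
  have h1 := length_le (κ := κ) (P := P) hJ' (Patching.isWeaklyRegular_rs hϖ0)
    (Patching.ofList_rs_eq_maximalIdeal hϖ) ρ hrs (fun i n => w n i) (fun i n => z n i)
    (fun k n => φ n k) (fun i n => hw n i) (fun i n => hz n i) e' (fun k n => hφ n k)
    (algebraMap O P ϖ) e hϖP hgen
  rwa [Patching.length_rs] at h1

end Fermat.Agent.Patch
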