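import Mathlib
import Fermat.Agent.Patching.RegularSeq
import Fermat.Agent.DefRing.Limit
import Fermat.Prelude.Thm_IsAdicComplete_of_module_finite

/-!
# Power series rings over complete local rings
-/

set_option autoImplicit false
set_option linter.unusedSectionVars false
set_option linter.style.haveILetI false

namespace Fermat.Agent.Patch

open IsLocalRing Finsupp

section coef

variable {O : Type} [CommRing O] {n : ℕ}

local notation "P" => MvPowerSeries (Fin n) O

/-- the ideal of variables -/
noncomputable abbrev vI (n : ℕ) (O : Type) [CommRing O] : Ideal (MvPowerSeries (Fin n) O) :=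
  Ideal.span (Set.range MvPowerSeries.X)

theorem coe_mem_vI_pow (m : ℕ) {q : MvPolynomial (Fin n) O}
    (hq : q ∈ MvPolynomial.idealOfVars (Fin n) O ^ m) : (q : MvPowerSeries (Fin n) O) ∈ vI n O ^ m := by
  have h1 : MvPolynomial.idealOfVars (Fin n) O ≤ (vI n O).comap
      (MvPolynomial.coeToMvPowerSeries.ringHom) := by
    rw [MvPolynomial.idealOfVars, Ideal.span_le]
    rintro _ ⟨i, rfl⟩
    change ((MvPolynomial.X i : MvPolynomial (Fin n) O) : MvPowerSeries (Fin n) O) ∈ vI n O
    rw [MvPolynomial.coe_X]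
    exact Ideal.subset_span ⟨i, rfl⟩
  have h2 := Ideal.pow_right_mono h1 m hq
  exact Ideal.le_comap_pow _ m h2

/-- a power series without terms of degree `< m` -/
theorem mem_vI_pow (m : ℕ) {f : MvPowerSeries (Fin n) O}
    (hf : ∀ d : Fin n →₀ ℕ, degree d < m → MvPowerSeries.coeff d f = 0) : f ∈ vI n O ^ m := by
  let e := MvPowerSeries.toAdicCompletionAlgEquiv (Fin n) O
  have h1 : e f ∈ (AdicCompletion.eval (MvPolynomial.idealOfVars (Fin n) O)
      (MvPolynomial (Fin n) O) m).ker := by
    rw [LinearMap.mem_ker]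
    change (MvPowerSeries.toAdicCompletion (Fin n) O f).val m = 0
    rw [MvPowerSeries.toAdicCompletion_apply_eq_mk_truncTotal]
    have h2 : MvPowerSeries.truncTotal m f = 0 := by
      ext d
      by_cases hd : degree d < m
      · rw [MvPowerSeries.coeff_truncTotal _ hd, hf d hd, MvPolynomial.coeff_zero]
      · rw [MvPowerSeries.coeff_truncTotal_eq_zero _ (not_lt.1 hd), MvPolynomial.coeff_zero]
    rw [h2, map_zero]
  rw [← AdicCompletion.pow_smul_top_eq_ker_eval (MvPolynomial.idealOfVars_fg (Fin n) O)] at h1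
  have h3 : ∀ y ∈ (MvPolynomial.idealOfVars (Fin n) O ^ m • ⊤ :
      Submodule (MvPolynomial (Fin n) O) (AdicCompletion (MvPolynomial.idealOfVars (Fin n) O)
        (MvPolynomial (Fin n) O))), e.symm y ∈ vI n O ^ m := by
    intro y hy
    induction hy using Submodule.smul_induction_on' with
    | smul a ha y _ =>
      rw [map_smul, Algebra.smul_def]
      exact Ideal.mul_mem_right _ _ (coe_mem_vI_pow m ha)
    | add y _ z _ hy hz =>
      rw [map_add]
      exact Ideal.add_mem _ hy hz
  have h4 := h3 _ h1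
  rwa [AlgEquiv.symm_apply_apply] at h4

end coef

section complete

variable {O : Type} [CommRing O] [IsLocalRing O] {n : ℕ}

/-- the ideal of power series whose coefficients lie in powers of the maximal ideal -/
def cI (n : ℕ) (O : Type) [CommRing O] [IsLocalRing O] (j : ℕ) : Ideal (MvPowerSeries (Fin n) O) where
  carrier := {f | ∀ d : Fin n →₀ ℕ, MvPowerSeries.coeff d f ∈ maximalIdeal O ^ (j - degree d)}
  zero_mem' := fun d => by rw [map_zero]; exact Ideal.zero_mem _
  add_mem' := fun hf hg d => by rw [map_add]; exact Ideal.add_mem _ (hf d) (hg d)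
  smul_mem' := fun a f hf d => by
    rw [smul_eq_mul, MvPowerSeries.coeff_mul]
    refine Ideal.sum_mem _ fun ⟨b, c⟩ hbc => ?_
    rw [Finset.HasAntidiagonal.mem_antidiagonal] at hbc
    refine Ideal.mul_mem_left _ _ (Ideal.pow_le_pow_right ?_ (hf c))
    have h1 : degree b + degree c = degree d := by rw [← map_add]; exact congrArg _ hbc
    omega

theorem mem_cI {j : ℕ} {f : MvPowerSeries (Fin n) O} : f ∈ cI n O j ↔
    ∀ d : Fin n →₀ ℕ, MvPowerSeries.coeff d f ∈ maximalIdeal O ^ (j - degree d) := Iff.rfl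

theorem constantCoeff_mem {f : MvPowerSeries (Fin n) O} (hf : f ∈ maximalIdeal (MvPowerSeries (Fin n) O)) :
    MvPowerSeries.constantCoeff f ∈ maximalIdeal O := by
  rw [IsLocalRing.mem_maximalIdeal, mem_nonunits_iff] at hf ⊢
  rwa [← MvPowerSeries.isUnit_iff_constantCoeff]

theorem max_pow_le_cI (j : ℕ) : maximalIdeal (MvPowerSeries (Fin n) O) ^ j ≤ cI n O j := by
  induction j with
  | zero => intro f _ d; simp
  | succ j ih =>
    rw [pow_succ', Ideal.mul_le]
    intro g hg f hf d
    have hf' := ih hf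
    rw [MvPowerSeries.coeff_mul]
    refine Ideal.sum_mem _ fun ⟨b, c⟩ hbc => ?_
    rw [Finset.HasAntidiagonal.mem_antidiagonal] at hbc
    simp only
    have h1 : degree b + degree c = degree d := by rw [← map_add]; exact congrArg _ hbc
    by_cases hb : b = 0
    · subst hb
      have h2 : MvPowerSeries.coeff 0 g ∈ maximalIdeal O := constantCoeff_mem hg
      have h3 := Ideal.mul_mem_mul h2 (hf' c)
      rw [← pow_succ'] at h3
      refine Ideal.pow_le_pow_right ?_ h3
      rw [map_zero, zero_add] at h1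
      omega
    · refine Ideal.mul_mem_left _ _ (Ideal.pow_le_pow_right ?_ (hf' c))
      have h4 : degree b ≠ 0 := fun h => hb (by rwa [degree_eq_zero_iff] at h)
      omega

theorem vI_le_max : vI n O ≤ maximalIdeal (MvPowerSeries (Fin n) O) := by
  rw [vI, Ideal.span_le]
  rintro _ ⟨i, rfl⟩
  rw [SetLike.mem_coe, IsLocalRing.mem_maximalIdeal, mem_nonunits_iff,
    MvPowerSeries.isUnit_iff_constantCoeff, MvPowerSeries.constantCoeff_X]
  exact not_isUnit_zero

theorem C_mem_max {a : O} (ha : a ∈ maximalIdeal O) :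
    MvPowerSeries.C a ∈ maximalIdeal (MvPowerSeries (Fin n) O) := by
  rw [IsLocalRing.mem_maximalIdeal, mem_nonunits_iff] at ha ⊢
  rwa [MvPowerSeries.isUnit_iff_constantCoeff, MvPowerSeries.constantCoeff_C]

theorem C_mem_max_pow {a : O} {j : ℕ} (ha : a ∈ maximalIdeal O ^ j) :
    MvPowerSeries.C a ∈ maximalIdeal (MvPowerSeries (Fin n) O) ^ j := by
  have h1 : maximalIdeal O ≤ (maximalIdeal (MvPowerSeries (Fin n) O)).comap
      (MvPowerSeries.C (σ := Fin n) (R := O)) := fun a ha => C_mem_max ha
  exact Ideal.le_comap_pow _ j (Ideal.pow_right_mono h1 j ha)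

theorem cI_le_max_pow (j : ℕ) : cI n O j ≤ maximalIdeal (MvPowerSeries (Fin n) O) ^ j := by
  intro f hf
  have h1 : f = (f - (MvPowerSeries.truncTotal j f : MvPolynomial (Fin n) O)) +
      (MvPowerSeries.truncTotal j f : MvPolynomial (Fin n) O) := by ring
  rw [h1]
  refine Ideal.add_mem _ (Ideal.pow_right_mono vI_le_max j (mem_vI_pow j fun d hd => ?_)) ?_
  · rw [map_sub, MvPolynomial.coeff_coe, MvPowerSeries.coeff_truncTotal _ hd, sub_self]
  · rw [MvPolynomial.as_sum (MvPowerSeries.truncTotal j f)]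
    have h2 : ((∑ v ∈ (MvPowerSeries.truncTotal j f).support, MvPolynomial.monomial v
        (MvPolynomial.coeff v (MvPowerSeries.truncTotal j f)) : MvPolynomial (Fin n) O) :
        MvPowerSeries (Fin n) O) = ∑ v ∈ (MvPowerSeries.truncTotal j f).support,
        MvPowerSeries.monomial v (MvPolynomial.coeff v (MvPowerSeries.truncTotal j f)) := by
      have h3 := map_sum (MvPolynomial.coeToMvPowerSeries.ringHom (σ := Fin n) (R := O))
        (fun v => MvPolynomial.monomial v (MvPolynomial.coeff v (MvPowerSeries.truncTotal j f)))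
        (MvPowerSeries.truncTotal j f).support
      refine h3.trans (Finset.sum_congr rfl fun v _ => ?_)
      exact MvPolynomial.coe_monomial _ _
    rw [h2]
    refine Ideal.sum_mem _ fun v _ => ?_
    by_cases hv : degree v < j
    · rw [MvPowerSeries.coeff_truncTotal _ hv]
      have h4 : (MvPowerSeries.monomial v (MvPowerSeries.coeff v f) : MvPowerSeries (Fin n) O) =
          MvPowerSeries.C (MvPowerSeries.coeff v f) * MvPowerSeries.monomial v 1 := by
        rw [← MvPowerSeries.monomial_zero_eq_C_apply, MvPowerSeries.monomial_mul_monomial,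
          zero_add, mul_one]
      have h5 : (MvPowerSeries.monomial v (1 : O) : MvPowerSeries (Fin n) O) ∈
          maximalIdeal (MvPowerSeries (Fin n) O) ^ degree v := by
        refine Ideal.pow_right_mono vI_le_max _ (mem_vI_pow _ fun d hd => ?_)
        rw [MvPowerSeries.coeff_monomial, if_neg]
        rintro rfl
        exact lt_irrefl _ hd
      rw [h4]
      have h6 := Ideal.mul_mem_mul (C_mem_max_pow (n := n) (hf v)) h5
      rw [← pow_add] at h6
      convert h6 using 2
      omega
    · rw [MvPowerSeries.coeff_truncTotal_eq_zero _ (not_lt.1 hv), map_zero]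
      exact Ideal.zero_mem _

theorem mem_max_pow_iff {j : ℕ} {f : MvPowerSeries (Fin n) O} :
    f ∈ maximalIdeal (MvPowerSeries (Fin n) O) ^ j ↔
    ∀ d : Fin n →₀ ℕ, MvPowerSeries.coeff d f ∈ maximalIdeal O ^ (j - degree d) :=
  ⟨fun h => max_pow_le_cI j h, fun h => cI_le_max_pow j h⟩

/-- **Power series rings over complete local rings are complete.** -/
instance isAdicComplete_ps [IsAdicComplete (maximalIdeal O) O] :
    IsAdicComplete (maximalIdeal (MvPowerSeries (Fin n) O)) (MvPowerSeries (Fin n) O) where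
  haus' := by
    intro f hf
    ext d
    rw [map_zero]
    refine IsHausdorff.haus (I := maximalIdeal O) inferInstance _ fun m => ?_
    have h1 := hf (m + degree d)
    rw [SModEq.zero, smul_eq_mul, Ideal.mul_top] at h1 ⊢
    have h2 := mem_max_pow_iff.1 h1 d
    rwa [Nat.add_sub_cancel] at h2
  prec' := by
    intro f hf
    have h1 : ∀ d : Fin n →₀ ℕ, ∃ L : O, ∀ m, MvPowerSeries.coeff d (f (m + degree d)) ≡ L
        [SMOD (maximalIdeal O ^ m • ⊤ : Submodule O O)] := by
      intro d
      refine IsPrecomplete.prec (I := maximalIdeal O) inferInstance fun {m m'} hmm => ?_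
      have h2 := hf (show m + degree d ≤ m' + degree d by omega)
      rw [SModEq.sub_mem, smul_eq_mul, Ideal.mul_top] at h2 ⊢
      have h3 := mem_max_pow_iff.1 h2 d
      rwa [Nat.add_sub_cancel, map_sub] at h3
    choose L hL using h1
    obtain ⟨g, hg⟩ : ∃ g : MvPowerSeries (Fin n) O, ∀ d, MvPowerSeries.coeff d g = L d :=
      ⟨fun d => L d, fun d => rfl⟩
    refine ⟨g, fun m => ?_⟩
    rw [SModEq.sub_mem, smul_eq_mul, Ideal.mul_top, mem_max_pow_iff]
    intro d
    rw [map_sub, hg]
    by_cases hd : degree d ≤ m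
    · have h5 := hL d (m - degree d)
      rwa [SModEq.sub_mem, smul_eq_mul, Ideal.mul_top, Nat.sub_add_cancel hd] at h5
    · rw [Nat.sub_eq_zero_of_le (by omega), pow_zero, Ideal.one_eq_top]
      trivial

instance finite_residue_ps [Finite (ResidueField O)] :
    Finite (ResidueField (MvPowerSeries (Fin n) O)) := by
  haveI : IsLocalHom (MvPowerSeries.C (σ := Fin n) (R := O)) := ⟨fun a ha => by
    rwa [MvPowerSeries.isUnit_iff_constantCoeff, MvPowerSeries.constantCoeff_C] at ha⟩
  have h1 : Function.Surjective (ResidueField.map (MvPowerSeries.C (σ := Fin n) (R := O))) := by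
    intro x
    obtain ⟨f, rfl⟩ := residue_surjective x
    refine ⟨residue O (MvPowerSeries.constantCoeff f), ?_⟩
    rw [ResidueField.map_residue, ← sub_eq_zero, ← map_sub, residue_eq_zero_iff,
      IsLocalRing.mem_maximalIdeal, mem_nonunits_iff, MvPowerSeries.isUnit_iff_constantCoeff,
      map_sub, MvPowerSeries.constantCoeff_C, sub_self]
    exact not_isUnit_zero
  exact Finite.of_surjective _ h1

end complete

section eval

variable {O : Type} [CommRing O] {n : ℕ}

theorem map_vI_pow {B : Type} [CommRing B] [Algebra O B] (f : MvPowerSeries (Fin n) O →ₐ[O] B)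
    (I : Ideal B) (hf : ∀ i, f (MvPowerSeries.X i) ∈ I) (m : ℕ) {F : MvPowerSeries (Fin n) O}
    (hF : F ∈ vI n O ^ m) : f F ∈ I ^ m := by
  have h1 : vI n O ≤ I.comap f := by
    rw [vI, Ideal.span_le]
    rintro _ ⟨i, rfl⟩
    exact hf i
  exact Ideal.le_comap_pow _ m (Ideal.pow_right_mono h1 m hF)

theorem sub_trunc_mem (m : ℕ) (F : MvPowerSeries (Fin n) O) :
    F - (MvPowerSeries.truncTotal m F : MvPolynomial (Fin n) O) ∈ vI n O ^ m :=
  mem_vI_pow m fun d hd => by
    rw [map_sub, MvPolynomial.coeff_coe, MvPowerSeries.coeff_truncTotal _ hd, sub_self]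

theorem algHom_coe {B : Type} [CommRing B] [Algebra O B] (f : MvPowerSeries (Fin n) O →ₐ[O] B)
    (q : MvPolynomial (Fin n) O) : f (q : MvPowerSeries (Fin n) O) =
      MvPolynomial.aeval (fun i => f (MvPowerSeries.X i)) q := by
  have h : (f.comp (MvPolynomial.coeToMvPowerSeries.algHom O) : MvPolynomial (Fin n) O →ₐ[O] B) =
      MvPolynomial.aeval (fun i => f (MvPowerSeries.X i)) := by
    refine MvPolynomial.algHom_ext fun i => ?_
    rw [MvPolynomial.aeval_X, AlgHom.comp_apply]
    congr 1
    rw [MvPolynomial.coeToMvPowerSeries.algHom_apply, MvPolynomial.coe_X]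
    exact MvPowerSeries.map_X _ _
  rw [← h, AlgHom.comp_apply]
  congr 1

/-- homomorphisms are determined by the images of the variables -/
theorem algHom_eq {B : Type} [CommRing B] [Algebra O B] (f g : MvPowerSeries (Fin n) O →ₐ[O] B)
    (I : Ideal B) {m : ℕ} (hI : I ^ m = ⊥) (hf : ∀ i, f (MvPowerSeries.X i) ∈ I)
    (hfg : ∀ i, f (MvPowerSeries.X i) = g (MvPowerSeries.X i)) : f = g := by
  ext F
  have h1 := sub_trunc_mem m F
  have h2 := map_vI_pow f I hf m h1
  have h3 := map_vI_pow g I (fun i => by rw [← hfg]; exact hf i) m h1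
  rw [hI, Ideal.mem_bot, map_sub, sub_eq_zero] at h2 h3
  rw [h2, h3, algHom_coe, algHom_coe]
  simp only [hfg]

variable {T : Type} [CommRing T] [IsLocalRing T] [IsAdicComplete (maximalIdeal T) T] [Algebra O T]

theorem exists_eval (x : Fin n → T) (hx : ∀ i, x i ∈ maximalIdeal T) :
    ∃ f : MvPowerSeries (Fin n) O →ₐ[O] T, ∀ i, f (MvPowerSeries.X i) = x i := by
  have hI0 : ∀ m, maximalIdeal T ^ m ≤ maximalIdeal T ^ m := fun m => le_rfl
  let F : ∀ m, MvPowerSeries (Fin n) O →ₐ[O] T ⧸ (maximalIdeal T ^ m) := fun m =>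
    DefRing.levelHom (maximalIdeal T) (fun m => maximalIdeal T ^ m) hI0 x hx m
  have hF : ∀ {m m' : ℕ} (hle : m ≤ m'),
      (Ideal.Quotient.factorₐ O (Ideal.pow_le_pow_right hle)).comp (F m') = F m := by
    intro m m' hle
    induction m', hle using Nat.le_induction with
    | base =>
      ext f
      obtain ⟨q, hq⟩ := Ideal.Quotient.mk_surjective (F m f)
      rw [AlgHom.comp_apply, ← hq]
      rfl
    | succ m' hle ih =>
      ext f
      have h1 := DefRing.levelHom_compat (𝒪 := O) (maximalIdeal T) (fun m => maximalIdeal T ^ m) hI0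
        x hx m' (Ideal.pow_le_pow_right (Nat.le_succ m')) f
      have h2 := congrArg (fun g : MvPowerSeries (Fin n) O →ₐ[O] T ⧸ (maximalIdeal T ^ m) => g f) ih
      rw [← h2, AlgHom.comp_apply, AlgHom.comp_apply]
      change _ = Ideal.Quotient.factor (Ideal.pow_le_pow_right hle) (DefRing.levelHom (maximalIdeal T)
        (fun m => maximalIdeal T ^ m) hI0 x hx m' f)
      rw [← h1]
      obtain ⟨q, hq⟩ := Ideal.Quotient.mk_surjective (F (m' + 1) f)
      change Ideal.Quotient.factor (Ideal.pow_le_pow_right (hle.trans (Nat.le_succ m')))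
        (F (m' + 1) f) = Ideal.Quotient.factor (Ideal.pow_le_pow_right hle)
        (Ideal.Quotient.factor (Ideal.pow_le_pow_right (Nat.le_succ m')) (F (m' + 1) f))
      rw [← hq, Ideal.Quotient.factor_mk, Ideal.Quotient.factor_mk, Ideal.Quotient.factor_mk]
  refine ⟨IsAdicComplete.liftAlgHom (maximalIdeal T) F hF, fun i => ?_⟩
  refine eq_of_sub_eq_zero (IsHausdorff.haus (I := maximalIdeal T) inferInstance _ fun m => ?_)
  rw [SModEq.zero, smul_eq_mul, Ideal.mul_top, ← Ideal.Quotient.eq_zero_iff_mem, map_sub,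
    sub_eq_zero, IsAdicComplete.mk_liftAlgHom (maximalIdeal T) F hF m]
  exact DefRing.levelHom_X (maximalIdeal T) _ hI0 x hx m i

/-- surjectivity -/
theorem surjective_of_gen [IsLocalRing O] [IsNoetherianRing T] [Module.Finite O T]
    [IsLocalHom (algebraMap O T)]
    (f : MvPowerSeries (Fin n) O →ₐ[O] T)
    (hres : ∀ t : T, ∃ a : O, t - algebraMap O T a ∈ maximalIdeal T)
    (hgen : maximalIdeal T ≤ (maximalIdeal O).map (algebraMap O T) ⊔
      Ideal.span (Set.range fun i => f (MvPowerSeries.X i)) ⊔ maximalIdeal T ^ 2) :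
    Function.Surjective f := by
  letI : Algebra (MvPowerSeries (Fin n) O) T := f.toRingHom.toAlgebra
  haveI : IsScalarTower O (MvPowerSeries (Fin n) O) T :=
    IsScalarTower.of_algebraMap_eq fun a => (f.commutes a).symm
  haveI : Module.Finite (MvPowerSeries (Fin n) O) T := Module.Finite.of_restrictScalars_finite O _ T
  set J : Ideal T := (maximalIdeal (MvPowerSeries (Fin n) O)).map f with hJ
  have hJle : (maximalIdeal O).map (algebraMap O T) ⊔
      Ideal.span (Set.range fun i => f (MvPowerSeries.X i)) ≤ J := by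
    refine sup_le ?_ ?_
    · rw [Ideal.map_le_iff_le_comap]
      intro a ha
      rw [Ideal.mem_comap, ← f.commutes a, MvPowerSeries.algebraMap_apply]
      exact Ideal.mem_map_of_mem f (C_mem_max ha)
    · rw [Ideal.span_le]
      rintro _ ⟨i, rfl⟩
      exact Ideal.mem_map_of_mem f (vI_le_max (Ideal.subset_span ⟨i, rfl⟩))
  have h1 : maximalIdeal T ≤ J := by
    refine Submodule.le_of_le_smul_of_le_jacobson_bot (I := maximalIdeal T)
      (IsNoetherian.noetherian _) (IsLocalRing.maximalIdeal_le_jacobson _) ?_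
    rw [smul_eq_mul, ← pow_two]
    exact hgen.trans (sup_le_sup_right hJle _)
  have h2 : (⊤ : Submodule (MvPowerSeries (Fin n) O) T) ≤
      LinearMap.range (Algebra.linearMap (MvPowerSeries (Fin n) O) T) := by
    refine Submodule.le_of_le_smul_of_le_jacobson_bot (I := maximalIdeal (MvPowerSeries (Fin n) O))
      Module.Finite.fg_top (IsLocalRing.maximalIdeal_le_jacobson _) ?_
    intro t _
    obtain ⟨a, ha⟩ := hres t
    have h3 : t = algebraMap O T a + (t - algebraMap O T a) := by ring
    rw [h3]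
    refine Submodule.add_mem_sup ⟨algebraMap O _ a, ?_⟩ ?_
    · rw [Algebra.linearMap_apply, ← IsScalarTower.algebraMap_apply]
    · have h4 := h1 ha
      rw [hJ] at h4
      have h5 : ((maximalIdeal (MvPowerSeries (Fin n) O)).map f : Set T) ⊆
          ((maximalIdeal (MvPowerSeries (Fin n) O)) •
            (⊤ : Submodule (MvPowerSeries (Fin n) O) T) : Submodule _ T) := by
        intro y hy
        rw [SetLike.mem_coe, Ideal.smul_top_eq_map]
        exact hy
      exact h5 h4
  intro t
  obtain ⟨F, hF⟩ := h2 (Submodule.mem_top : t ∈ ⊤)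
  exact ⟨F, hF⟩

end eval

end Fermat.Agent.Patch
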